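import Fermat.Agent.CubeRootBounds.Sawtooth
import Fermat.Agent.ErdosFuchs.Circle
import Mathlib.Analysis.SpecialFunctions.Trigonometric.InverseDeriv
import Mathlib.Analysis.SpecialFunctions.Sqrt

/-!
# The circle problem with exponent `1/3`

The disc is cut at `x = √(N/2)`; the sum of `√(N - x²)` is its integral by the trapezoid rule.
-/

set_option autoImplicit false

noncomputable section

namespace FA.CubeRootBounds

open Finset
open scoped Real

/-- The trapezoid rule on a unit interval. -/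
theorem abs_trapezoid_le {F f g : ℝ → ℝ} {a M : ℝ} (hM : 0 ≤ M)
    (hF : ∀ x ∈ Set.Icc a (a + 1), HasDerivAt F (f x) x)
    (hf : ∀ x ∈ Set.Icc a (a + 1), HasDerivAt f (g x) x)
    (hg : ∀ x ∈ Set.Icc a (a + 1), ∀ y ∈ Set.Icc a (a + 1), |g x - g y| ≤ M * |x - y|) :
    |F (a + 1) - F a - (f a + f (a + 1)) / 2| ≤ M := by
  set G : ℝ → ℝ := fun x => F x - F a - (x - a) * (f a + f x) / 2 with hG
  have hder : ∀ x ∈ Set.Icc a (a + 1),
      HasDerivAt G ((f x - f a - (x - a) * g x) / 2) x := fun x hx => by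
    have h1 := ((hasDerivAt_id' x).sub_const a).fun_mul ((hf x hx).const_add (f a))
    exact (((hF x hx).sub_const (F a)).sub (h1.div_const 2)).congr_deriv (by ring)
  obtain ⟨ξ, hξ, hslope⟩ := exists_hasDerivAt_eq_slope G
    (fun x => (f x - f a - (x - a) * g x) / 2) (show a < a + 1 by linarith)
    (fun x hx => (hder x hx).continuousAt.continuousWithinAt)
    (fun x hx => hder x ⟨hx.1.le, hx.2.le⟩)
  rw [add_sub_cancel_left, div_one] at hslope
  have hGa : G a = 0 := by simp [hG]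
  rw [hGa, sub_zero] at hslope
  rw [show F (a + 1) - F a - (f a + f (a + 1)) / 2 = G (a + 1) by simp [hG], ← hslope]
  obtain ⟨η, hη, hslope'⟩ := exists_hasDerivAt_eq_slope f g hξ.1
    (fun x hx => (hf x ⟨hx.1, hx.2.trans hξ.2.le⟩).continuousAt.continuousWithinAt)
    (fun x hx => hf x ⟨hx.1.le, hx.2.le.trans hξ.2.le⟩)
  have hpos : 0 < ξ - a := by linarith [hξ.1]
  rw [eq_div_iff hpos.ne'] at hslope'
  rw [← hslope', show g η * (ξ - a) - (ξ - a) * g ξ = (ξ - a) * (g η - g ξ) by ring, abs_div,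
    abs_mul, abs_of_pos hpos, abs_two, div_le_iff₀ two_pos]
  have h := hg η ⟨hη.1.le, by linarith [hη.2, hξ.2]⟩ ξ ⟨hξ.1.le, hξ.2.le⟩
  calc (ξ - a) * |g η - g ξ| ≤ 1 * (M * 1) := by
        refine mul_le_mul (by linarith [hξ.2]) (h.trans (mul_le_mul_of_nonneg_left ?_ hM))
          (abs_nonneg _) zero_le_one
        rw [abs_le]
        constructor <;> linarith [hη.1, hη.2, hξ.2]
    _ ≤ M * 2 := by linarith

/-- The trapezoid rule on `[0, X]`. -/
theorem abs_sum_trapezoid_le {F f g : ℝ → ℝ} {M : ℝ} (hM : 0 ≤ M) {B : ℝ} :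
    ∀ X : ℕ, (X : ℝ) ≤ B → (∀ x ∈ Set.Icc 0 B, HasDerivAt F (f x) x) →
      (∀ x ∈ Set.Icc 0 B, HasDerivAt f (g x) x) →
      (∀ x ∈ Set.Icc 0 B, ∀ y ∈ Set.Icc 0 B, |g x - g y| ≤ M * |x - y|) →
      |∑ i ∈ Icc 1 X, f i - (F X - F 0 + (f X - f 0) / 2)| ≤ X * M := by
  intro X
  induction X with
  | zero => intro _ _ _ _; simp
  | succ X ih =>
    intro hX hF hf hg
    push_cast at hX
    have hsub : Set.Icc (X : ℝ) (X + 1) ⊆ Set.Icc 0 B := fun x hx =>
      ⟨(Nat.cast_nonneg X).trans hx.1, hx.2.trans hX⟩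
    have h := abs_trapezoid_le hM (fun x hx => hF x (hsub hx)) (fun x hx => hf x (hsub hx))
      (fun x hx y hy => hg x (hsub hx) y (hsub hy))
    have h' := ih (by linarith) hF hf hg
    rw [Finset.sum_Icc_succ_top (Nat.le_add_left 1 X)]
    push_cast
    rw [abs_le] at h h' ⊢
    constructor <;> linarith [h.1, h.2, h'.1, h'.2]

theorem sum_Icc_symm (F : ℕ → ℕ) : ∀ s : ℕ,
    ∑ x ∈ Icc (-(s : ℤ)) s, F x.natAbs = F 0 + 2 * ∑ i ∈ Icc 1 s, F i := by
  intro s
  induction s with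
  | zero => simp
  | succ s ih =>
    have e : Icc (-((s + 1 : ℕ) : ℤ)) (s + 1 : ℕ) =
        insert (-((s + 1 : ℕ) : ℤ)) (insert ((s + 1 : ℕ) : ℤ) (Icc (-(s : ℤ)) s)) := by
      ext x
      simp only [mem_Icc, mem_insert]
      omega
    rw [e, Finset.sum_insert (by simp only [mem_insert, mem_Icc]; omega),
      Finset.sum_insert (by simp only [mem_Icc]; omega), ih,
      Finset.sum_Icc_succ_top (Nat.le_add_left 1 s), Int.natAbs_neg, Int.natAbs_natCast]
    ring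

theorem sq_le_iff_le_sqrt_sub {N x y : ℕ} (hx : x * x ≤ N) :
    x * x + y * y ≤ N ↔ y ≤ Nat.sqrt (N - x * x) := by
  rw [Nat.le_sqrt]
  omega

/-- The disc by its columns. -/
theorem ncard_disc (N : ℕ) :
    {v : ℤ × ℤ | v.1 ^ 2 + v.2 ^ 2 ≤ (N : ℤ)}.ncard =
      1 + 4 * Nat.sqrt N + 4 * ∑ i ∈ Icc 1 (Nat.sqrt N), Nat.sqrt (N - i * i) := by
  classical
  set s := Nat.sqrt N
  set t : ℕ → ℕ := fun i => Nat.sqrt (N - i * i)
  have hset : {v : ℤ × ℤ | v.1 ^ 2 + v.2 ^ 2 ≤ (N : ℤ)} =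
      ↑((Icc (-(s : ℤ)) s).biUnion fun x =>
        (Icc (-(t x.natAbs : ℤ)) (t x.natAbs)).image fun y => (x, y)) := by
    ext ⟨x, y⟩
    simp only [Set.mem_ofPred_eq, mem_coe, mem_biUnion, mem_image, Prod.mk.injEq, mem_Icc]
    have hab : x ^ 2 + y ^ 2 ≤ (N : ℤ) ↔
        x.natAbs * x.natAbs + y.natAbs * y.natAbs ≤ N := by
      rw [← Int.ofNat_le]
      push_cast
      rw [abs_mul_abs_self, abs_mul_abs_self, sq, sq]
    rw [hab]
    constructor
    · intro h
      have hx : x.natAbs ≤ s := Nat.le_sqrt.2 ((Nat.le_add_right _ _).trans h)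
      have hy : y.natAbs ≤ t x.natAbs :=
        (sq_le_iff_le_sqrt_sub ((Nat.le_add_right _ _).trans h)).1 h
      exact ⟨x, by omega, y, by omega, rfl, rfl⟩
    · rintro ⟨a, ha, b, hb, rfl, rfl⟩
      have hb' : b.natAbs ≤ t a.natAbs := by omega
      exact (sq_le_iff_le_sqrt_sub (Nat.le_sqrt.1 (show a.natAbs ≤ s by omega))).2 hb'
  rw [hset, Set.ncard_coe_finset, Finset.card_biUnion fun a _ b _ hab => by
    refine Finset.disjoint_left.2 fun v ha hb => hab ?_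
    obtain ⟨_, -, rfl⟩ := mem_image.1 ha
    obtain ⟨_, -, e⟩ := mem_image.1 hb
    exact (congrArg Prod.fst e).symm]
  have hc : ∀ x : ℤ, ((Icc (-(t x.natAbs : ℤ)) (t x.natAbs)).image fun y => (x, y)).card =
      2 * t x.natAbs + 1 := fun x => by
    rw [Finset.card_image_of_injective _ (Prod.mk_right_injective x), Int.card_Icc]
    omega
  rw [Finset.sum_congr rfl fun x _ => hc x, sum_Icc_symm (fun i => 2 * t i + 1) s,
    Finset.sum_add_distrib, ← Finset.mul_sum, Finset.sum_const, Nat.card_Icc]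
  simp only [t, smul_eq_mul, mul_one, mul_zero, Nat.sub_zero, Nat.add_sub_cancel]
  ring

/-- The two halves of the quadrant. -/
theorem sum_sqrt_fold {N X : ℕ} (h1 : 2 * (X * X) ≤ N) (h2 : N < 2 * ((X + 1) * (X + 1))) :
    ∑ i ∈ Icc 1 (Nat.sqrt N), Nat.sqrt (N - i * i) + X * X =
      2 * ∑ i ∈ Icc 1 X, Nat.sqrt (N - i * i) := by
  classical
  set s := Nat.sqrt N
  have hXs : X ≤ s := Nat.le_sqrt.2 (by omega)
  have hcol : ∀ i ∈ Icc 1 s, Nat.sqrt (N - i * i) =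
      ((Icc 1 s).filter fun j => i * i + j * j ≤ N).card := fun i hi => by
    have hiN : i * i ≤ N := Nat.le_sqrt.1 (mem_Icc.1 hi).2
    rw [show (Icc 1 s).filter (fun j => i * i + j * j ≤ N) = Icc 1 (Nat.sqrt (N - i * i)) from ?_,
      Nat.card_Icc, Nat.add_sub_cancel]
    ext j
    simp only [mem_filter, mem_Icc, sq_le_iff_le_sqrt_sub hiN]
    refine ⟨fun h => ⟨h.1.1, h.2⟩, fun h => ⟨⟨h.1, h.2.trans (Nat.sqrt_le_sqrt ?_)⟩, h.2⟩⟩
    exact Nat.sub_le _ _
  have hsplit : ∀ i ∈ Icc 1 X, Nat.sqrt (N - i * i) =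
      X + ((Ioc X s).filter fun j => i * i + j * j ≤ N).card := fun i hi => by
    have hiX := (mem_Icc.1 hi).2
    rw [hcol i (mem_Icc.2 ⟨(mem_Icc.1 hi).1, hiX.trans hXs⟩)]
    rw [show Icc 1 s = Icc 1 X ∪ Ioc X s by ext j; simp only [mem_union, mem_Icc, mem_Ioc]; omega,
      filter_union, card_union_of_disjoint (Finset.disjoint_left.2 fun j ha hb => by
        simp only [mem_filter, mem_Icc, mem_Ioc] at ha hb; omega)]
    congr 1
    rw [Finset.filter_true_of_mem fun j hj => ?_, Nat.card_Icc, Nat.add_sub_cancel]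
    have hjX := (mem_Icc.1 hj).2
    have := Nat.mul_le_mul hiX hiX
    have := Nat.mul_le_mul hjX hjX
    omega
  have hbig : ∑ i ∈ Ioc X s, Nat.sqrt (N - i * i) =
      ∑ i ∈ Icc 1 X, ((Ioc X s).filter fun j => i * i + j * j ≤ N).card := by
    simp only [Finset.card_filter]
    rw [Finset.sum_comm]
    refine Finset.sum_congr rfl fun i hi => ?_
    have hi' := mem_Ioc.1 hi
    rw [hcol i (mem_Icc.2 ⟨by omega, hi'.2⟩), ← Finset.card_filter]
    congr 1
    ext j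
    simp only [mem_filter, mem_Icc, add_comm (j * j)]
    refine ⟨fun h => ⟨⟨h.1.1, ?_⟩, h.2⟩, fun h => ⟨⟨h.1.1, h.1.2.trans hXs⟩, h.2⟩⟩
    by_contra hjX
    have := Nat.mul_le_mul (show X + 1 ≤ i by omega) (show X + 1 ≤ i by omega)
    have := Nat.mul_le_mul (show X + 1 ≤ j by omega) (show X + 1 ≤ j by omega)
    omega
  have hunion : Icc 1 s = Icc 1 X ∪ Ioc X s := by
    ext j; simp only [mem_union, mem_Icc, mem_Ioc]; omega
  have hsum : ∑ i ∈ Icc 1 X, Nat.sqrt (N - i * i) =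
      X * X + ∑ i ∈ Icc 1 X, ((Ioc X s).filter fun j => i * i + j * j ≤ N).card := by
    rw [Finset.sum_congr rfl hsplit, Finset.sum_add_distrib, Finset.sum_const, Nat.card_Icc,
      Nat.add_sub_cancel, smul_eq_mul]
  rw [hunion, Finset.sum_union (Finset.disjoint_left.2 fun j ha hb => by
    simp only [mem_Icc, mem_Ioc] at ha hb; omega), hbig]
  omega

/-- **Sierpiński: the circle problem with exponent `1/3`.** -/
theorem exists_circle_bound : ∃ C : ℝ, ∀ N : ℕ, 1 ≤ N →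
    |({v : ℤ × ℤ | v.1 ^ 2 + v.2 ^ 2 ≤ (N : ℤ)}.ncard : ℝ) - π * N| ≤
      C * (N : ℝ) ^ ((1 : ℝ) / 3) * (1 + Real.log N) := by
  refine ⟨8 * ((16 * 3 + 7) * (8 * 3 + 38) * 2) + 100, fun N hN => ?_⟩
  set S := Real.sqrt ((N : ℝ) / 2) with hS
  set X := ⌊S⌋₊
  have hNR : (1 : ℝ) ≤ N := Nat.one_le_cast.2 hN
  have hS0 : 0 ≤ S := Real.sqrt_nonneg _
  have hS2 : S ^ 2 = N / 2 := Real.sq_sqrt (by positivity)
  have hX1 : (X : ℝ) ≤ S := Nat.floor_le hS0
  have hX2 : S < X + 1 := Nat.lt_floor_add_one S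
  have hfold := sum_sqrt_fold (N := N) (X := X)
    (by
      have : ((2 * (X * X) : ℕ) : ℝ) ≤ (N : ℕ) := by push_cast; nlinarith
      exact_mod_cast this)
    (by
      have : ((N : ℕ) : ℝ) < ((2 * ((X + 1) * (X + 1)) : ℕ) : ℝ) := by push_cast; nlinarith
      exact_mod_cast this)
  set f : ℝ → ℝ := fun x => √((N : ℝ) - x ^ 2) with hf
  set g : ℝ → ℝ := fun x => -x / f x
  set F : ℝ → ℝ := fun x => (x * f x + N * Real.arcsin (x / √(N : ℝ))) / 2 with hF
  set r := √(N : ℝ) with hr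
  have hr2 : r ^ 2 = N := Real.sq_sqrt (by positivity)
  have hr1 : 1 ≤ r := Real.one_le_sqrt.2 hNR
  have hfpos : ∀ x ∈ Set.Icc 0 S, 0 < f x ∧ r * r / 2 ≤ f x * f x ∧ f x ≤ r := fun x hx => by
    have hx2 : x ^ 2 ≤ N / 2 := hS2 ▸ pow_le_pow_left₀ hx.1 hx.2 2
    refine ⟨Real.sqrt_pos.2 (by linarith), ?_, Real.sqrt_le_sqrt (by nlinarith)⟩
    have e : f x * f x = N - x ^ 2 := Real.mul_self_sqrt (by linarith)
    rw [e]
    nlinarith
  have hfd : ∀ x ∈ Set.Icc 0 S, HasDerivAt f (g x) x := fun x hx => by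
    have h0 := (hfpos x hx).1
    have h1 : (N : ℝ) - x ^ 2 ≠ 0 := fun h => by simp [hf, h] at h0
    refine (((hasDerivAt_pow 2 x).const_sub (N : ℝ)).sqrt h1).congr_deriv ?_
    simp only [g, hf]
    field_simp
    ring
  have hFd : ∀ x ∈ Set.Icc 0 S, HasDerivAt F (f x) x := fun x hx => by
    obtain ⟨h0, h1, h2⟩ := hfpos x hx
    have hx2 : x ^ 2 ≤ N / 2 := hS2 ▸ pow_le_pow_left₀ hx.1 hx.2 2
    have hxr : x < r := by nlinarith
    have hne1 : x / r ≠ -1 := by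
      have : 0 ≤ x / r := div_nonneg hx.1 (by linarith)
      linarith
    have hne2 : x / r ≠ 1 := ne_of_lt ((div_lt_one (by linarith)).2 hxr)
    have hroot : √(1 - (x / r) ^ 2) = f x / r := by
      rw [show 1 - (x / r) ^ 2 = ((N : ℝ) - x ^ 2) / r ^ 2 by
        rw [div_pow, sub_div, ← hr2, div_self (by positivity)],
        Real.sqrt_div' _ (by positivity), Real.sqrt_sq (by linarith)]
    refine ((((hasDerivAt_id' x).fun_mul (hfd x hx)).fun_add
      (((Real.hasDerivAt_arcsin hne1 hne2).comp x ((hasDerivAt_id' x).div_const r)).const_mul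
        (N : ℝ))).div_const 2).congr_deriv ?_
    have hfx : f x * f x = N - x ^ 2 := Real.mul_self_sqrt (by linarith)
    rw [hroot]
    simp only [g]
    field_simp
    linear_combination -hfx
  have hgd : ∀ x ∈ Set.Icc 0 S, HasDerivAt g (-(N : ℝ) / f x ^ 3) x := fun x hx => by
    obtain ⟨h0, -, -⟩ := hfpos x hx
    have hfx : f x * f x = N - x ^ 2 := Real.mul_self_sqrt (by
      have : x ^ 2 ≤ N / 2 := hS2 ▸ pow_le_pow_left₀ hx.1 hx.2 2
      linarith)
    refine (((hasDerivAt_id' x).neg).fun_div (hfd x hx) h0.ne').congr_deriv ?_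
    simp only [g, Pi.neg_apply]
    field_simp
    linear_combination -hfx
  have hmono : ∀ x ∈ Set.Icc 0 S, ∀ y ∈ Set.Icc 0 S, x < y →
      1 / r * (y - x) ≤ g x - g y ∧ g x - g y ≤ 3 / r * (y - x) := by
    intro x hx y hy hxy
    obtain ⟨ξ, hξ, hs⟩ := exists_hasDerivAt_eq_slope g (fun t => -(N : ℝ) / f t ^ 3) hxy
      (fun t ht => (hgd t ⟨hx.1.trans ht.1, ht.2.trans hy.2⟩).continuousAt.continuousWithinAt)
      (fun t ht => hgd t ⟨hx.1.trans ht.1.le, ht.2.le.trans hy.2⟩)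
    rw [eq_div_iff (by linarith)] at hs
    obtain ⟨h0, h1, h2⟩ := hfpos ξ ⟨hx.1.trans hξ.1.le, hξ.2.le.trans hy.2⟩
    have hlo : 1 / r ≤ (N : ℝ) / f ξ ^ 3 := by
      rw [div_le_div_iff₀ (by linarith) (by positivity), ← hr2]
      calc 1 * f ξ ^ 3 ≤ 1 * r ^ 3 := by gcongr
        _ = r ^ 2 * r := by ring
    have hhi : (N : ℝ) / f ξ ^ 3 ≤ 3 / r := by
      rw [div_le_div_iff₀ (by positivity) (by linarith), ← hr2]
      have h7 : 0.7 * r ≤ f ξ := by nlinarith
      nlinarith [mul_le_mul h1 h7 (by positivity) (by positivity)]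
    rw [show g x - g y = (N : ℝ) / f ξ ^ 3 * (y - x) by
      rw [neg_div, neg_mul] at hs; linarith]
    exact ⟨mul_le_mul_of_nonneg_right hlo (by linarith),
      mul_le_mul_of_nonneg_right hhi (by linarith)⟩
  have hlip : ∀ x ∈ Set.Icc 0 S, ∀ y ∈ Set.Icc 0 S,
      1 / r * |x - y| ≤ |g x - g y| ∧ |g x - g y| ≤ 3 / r * |x - y| := by
    intro x hx y hy
    have hr0 : 0 < 1 / r := by positivity
    rcases lt_trichotomy x y with h | rfl | h
    · obtain ⟨a, b⟩ := hmono x hx y hy h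
      rw [abs_of_neg (by linarith : x - y < 0), abs_of_nonneg (by nlinarith), neg_sub]
      exact ⟨a, b⟩
    · simp
    · obtain ⟨a, b⟩ := hmono y hy x hx h
      rw [abs_of_pos (by linarith : 0 < x - y), abs_of_nonpos (by nlinarith), neg_sub]
      exact ⟨a, b⟩
  -- the integral
  have htrap := abs_sum_trapezoid_le (show (0 : ℝ) ≤ 3 / r by positivity) X hX1 hFd hfd
    fun x hx y hy => (hlip x hx y hy).2
  have hXr : (X : ℝ) ≤ r := hX1.trans (Real.sqrt_le_sqrt (by linarith))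
  have htrap' : |∑ i ∈ Icc 1 X, f i - (F X - F 0 + (f X - f 0) / 2)| ≤ 3 := by
    refine htrap.trans ?_
    rw [mul_div, div_le_iff₀ (by linarith)]
    linarith
  have hF0 : F 0 = 0 := by simp [hF]
  have hf0 : f 0 = r := by simp [hf, hr]
  have hfS : f S = S := by
    simp only [hf]
    rw [hS2, show (N : ℝ) - N / 2 = N / 2 by ring]
  have hFS : F S = N / 4 + π * N / 8 := by
    have h4 : Real.arcsin (S / r) = π / 4 := by
      refine Real.arcsin_eq_of_sin_eq ?_ ⟨by linarith [Real.pi_pos], by linarith [Real.pi_pos]⟩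
      rw [Real.sin_pi_div_four, hS, Real.sqrt_div (by positivity), hr]
      have h2 : (√2 : ℝ) ^ 2 = 2 := Real.sq_sqrt (by norm_num)
      field_simp
      linarith
    simp only [hF]
    rw [hfS, ← sq, hS2, h4]
    ring
  have hends : |f X - S| ≤ 1 ∧ |F S - F X - (S - X) * S| ≤ 1 := by
    rcases hX1.eq_or_lt with he | hlt
    · rw [he, hfS]
      simp
    have hg1 : ∀ x ∈ Set.Icc 0 S, |g x| ≤ 1 := fun x hx => by
      obtain ⟨h0, h1, -⟩ := hfpos x hx
      have hx2 : x ^ 2 ≤ N / 2 := hS2 ▸ pow_le_pow_left₀ hx.1 hx.2 2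
      rw [abs_div, abs_neg, abs_of_nonneg hx.1, abs_of_pos h0, div_le_one h0]
      nlinarith
    have hsub : Set.Icc (X : ℝ) S ⊆ Set.Icc 0 S := fun x hx =>
      ⟨(Nat.cast_nonneg X).trans hx.1, hx.2⟩
    have hfdiff : ∀ a ∈ Set.Icc (X : ℝ) S, |f a - S| ≤ S - a := fun a ha => by
      rcases ha.2.eq_or_lt with rfl | hlt'
      · rw [hfS]; simp
      obtain ⟨ξ, hξ, hs⟩ := exists_hasDerivAt_eq_slope f g hlt'
        (fun t ht => (hfd t (hsub ⟨ha.1.trans ht.1, ht.2⟩)).continuousAt.continuousWithinAt)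
        (fun t ht => hfd t (hsub ⟨ha.1.trans ht.1.le, ht.2.le⟩))
      rw [eq_div_iff (by linarith), hfS] at hs
      have := hg1 ξ (hsub ⟨ha.1.trans hξ.1.le, hξ.2.le⟩)
      rw [abs_sub_comm, ← hs, abs_mul, abs_of_pos (show 0 < S - a by linarith)]
      exact mul_le_of_le_one_left (by linarith) this
    refine ⟨(hfdiff X ⟨le_rfl, hX1⟩).trans (by linarith), ?_⟩
    obtain ⟨ξ, hξ, hs⟩ := exists_hasDerivAt_eq_slope F f hlt
      (fun t ht => (hFd t (hsub ht)).continuousAt.continuousWithinAt)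
      (fun t ht => hFd t (hsub ⟨ht.1.le, ht.2.le⟩))
    rw [eq_div_iff (by linarith)] at hs
    rw [← hs, show f ξ * (S - X) - (S - X) * S = (S - X) * (f ξ - S) by ring, abs_mul,
      abs_of_pos (show 0 < S - (X : ℝ) by linarith)]
    exact mul_le_one₀ (by linarith) (abs_nonneg _)
      ((hfdiff ξ ⟨hξ.1.le, hξ.2.le⟩).trans (by linarith [hξ.1]))
  -- the sawtooth
  set μ : ℝ := (N : ℝ) ^ (-(1 : ℝ) / 6) with hμdef
  have hμ : 0 < μ := Real.rpow_pos_of_pos (by linarith) _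
  have hμ3 : μ ^ 3 = 1 / r := by
    rw [hμdef, ← Real.rpow_natCast (_ ^ _) 3, ← Real.rpow_mul (by linarith), hr,
      Real.sqrt_eq_rpow, one_div ((N : ℝ) ^ (1 / 2 : ℝ)), ← Real.rpow_neg (by linarith)]
    norm_num
  have hsaw : |∑ i ∈ Icc 1 X, saw (f i)| ≤
      (16 * 3 + 7) * (8 * 3 + 38) * 2 * ((N : ℝ) ^ ((1 : ℝ) / 3) * (1 + Real.log N)) + 1 := by
    rcases Nat.eq_zero_or_pos X with h0 | hX0
    · simp [h0]
      have : 0 ≤ (N : ℝ) ^ (3⁻¹ : ℝ) * (1 + Real.log N) :=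
        mul_nonneg (by positivity) (by linarith [Real.log_nonneg hNR])
      linarith
    have hcurve : IsCurve f g 3 μ 1 X :=
      ⟨fun x hx => hfd x ⟨by have := hx.1; push_cast at this; linarith, hx.2.trans hX1⟩,
        fun x hx y hy => by
          have := hlip x ⟨by have := hx.1; push_cast at this; linarith, hx.2.trans hX1⟩
            y ⟨by have := hy.1; push_cast at this; linarith, hy.2.trans hX1⟩
          rw [hμ3, mul_one_div]
          exact this⟩
    have h := abs_sum_saw_le (by norm_num) hμ hX0 hcurve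
    rw [← Finset.Ico_insert_right hX0, Finset.sum_insert right_notMem_Ico]
    refine (abs_add_le _ _).trans ?_
    rw [add_comm]
    refine add_le_add (h.trans ?_) ((abs_saw_le _).trans (by norm_num))
    rw [mul_assoc ((16 * 3 + 7 : ℝ) * (8 * 3 + 38)) 2]
    refine mul_le_mul_of_nonneg_left ?_ (by norm_num)
    have hrμ : r * μ = (N : ℝ) ^ ((1 : ℝ) / 3) := by
      rw [hr, Real.sqrt_eq_rpow, hμdef, ← Real.rpow_add (by linarith)]
      norm_num
    have hμ2 : 1 / μ ^ 2 = (N : ℝ) ^ ((1 : ℝ) / 3) := by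
      rw [hμdef, ← Real.rpow_natCast (_ ^ _) 2, ← Real.rpow_mul (by linarith), one_div,
        ← Real.rpow_neg (by linarith)]
      norm_num
    have hlog : |Real.log μ| ≤ Real.log N := by
      rw [hμdef, Real.log_rpow (by linarith), abs_mul, abs_of_nonneg (Real.log_nonneg hNR)]
      norm_num
      linarith [Real.log_nonneg hNR]
    have h3 : (0 : ℝ) ≤ (N : ℝ) ^ ((1 : ℝ) / 3) := by positivity
    have h4 : ((X : ℝ) - (1 : ℕ)) * μ * (1 + |Real.log μ|) ≤
        (N : ℝ) ^ ((1 : ℝ) / 3) * (1 + Real.log N) := by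
      rw [← hrμ]
      refine mul_le_mul (mul_le_mul_of_nonneg_right (by push_cast; linarith) hμ.le)
        (by linarith) (by positivity) (by positivity)
    have h5 : (N : ℝ) ^ ((1 : ℝ) / 3) ≤ (N : ℝ) ^ ((1 : ℝ) / 3) * (1 + Real.log N) :=
      le_mul_of_one_le_right h3 (by linarith [Real.log_nonneg hNR])
    rw [hμ2]
    linarith
  -- the count
  have hcast : ∀ i ∈ Icc 1 X, ((Nat.sqrt (N - i * i) : ℕ) : ℝ) = f i - 1 / 2 - saw (f i) := by
    intro i hi
    have hiX : (i : ℝ) ≤ X := Nat.cast_le.2 (mem_Icc.1 hi).2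
    have hiN : i * i ≤ N := by
      have : ((i * i : ℕ) : ℝ) ≤ (N : ℕ) := by
        push_cast
        nlinarith [(Nat.cast_nonneg i : (0 : ℝ) ≤ i)]
      exact_mod_cast this
    rw [← floor_eq_sub_saw, ← Int.cast_natCast, ← Real.floor_real_sqrt_eq_nat_sqrt]
    simp only [hf, Nat.cast_sub hiN, Nat.cast_mul, sq]
  rw [ncard_disc]
  have hT : ((∑ i ∈ Icc 1 (Nat.sqrt N), Nat.sqrt (N - i * i) : ℕ) : ℝ) =
      2 * (∑ i ∈ Icc 1 X, f i - X / 2 - ∑ i ∈ Icc 1 X, saw (f i)) - X * X := by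
    have h := congrArg (Nat.cast : ℕ → ℝ) hfold
    push_cast at h ⊢
    rw [Finset.sum_congr rfl hcast, Finset.sum_sub_distrib, Finset.sum_sub_distrib,
      Finset.sum_const, Nat.card_Icc, Nat.add_sub_cancel, nsmul_eq_mul] at h
    linarith
  have hsq : |((Nat.sqrt N : ℕ) : ℝ) - r| ≤ 1 := by
    have h1 : ((Nat.sqrt N : ℕ) : ℝ) ≤ r := Real.nat_sqrt_le_real_sqrt
    have h2 : r ≤ ((Nat.sqrt N : ℕ) : ℝ) + 1 := Real.real_sqrt_le_nat_sqrt_succ
    rw [abs_le]; constructor <;> linarith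
  push_cast at hT ⊢
  rw [hT]
  obtain ⟨e1, e2⟩ := hends
  rw [hF0, hf0, sub_zero] at htrap'
  rw [hFS] at e2
  have hθ : (S - X) ^ 2 ≤ 1 := by nlinarith
  have hbig : (1 : ℝ) ≤ (N : ℝ) ^ ((1 : ℝ) / 3) * (1 + Real.log N) :=
    one_le_mul_of_one_le_of_one_le (Real.one_le_rpow hNR (by norm_num))
      (by linarith [Real.log_nonneg hNR])
  rw [abs_le] at htrap' e1 e2 hsq hsaw ⊢
  constructor <;> nlinarith [sq_nonneg (S - X)]

end FA.CubeRootBounds

end
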