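import Fermat.Agent.CubeRootBounds.Sawtooth
import Fermat.Agent.PrimesMinusOne.Titchmarsh
import Mathlib.NumberTheory.Harmonic.EulerMascheroni

/-!
# The divisor problem with exponent `1/3`

The hyperbola is cut dyadically; the harmonic sum is expanded up to `O (1/X²)`.
-/

set_option autoImplicit false

noncomputable section

namespace FA.CubeRootBounds

open Finset Filter
open scoped Topology

/-- `H n - log n - 1/(2 n)`. -/
def eulerErr (n : ℕ) : ℝ :=
  (harmonic n : ℝ) - Real.log n - 1 / (2 * n)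

theorem abs_eulerErr_step {n : ℕ} (hn : 1 ≤ n) :
    |eulerErr (n + 1) - eulerErr n| ≤ 3 * (1 / (n : ℝ) ^ 2 - 1 / ((n : ℝ) + 1) ^ 2) := by
  have hn' : (1 : ℝ) ≤ n := Nat.one_le_cast.2 hn
  have hn0 : (0 : ℝ) < n := by linarith
  rw [eulerErr, eulerErr, harmonic_succ]
  push_cast
  rw [show ((harmonic n : ℝ) + ((n : ℝ) + 1)⁻¹ - Real.log ((n : ℝ) + 1) -
      1 / (2 * ((n : ℝ) + 1)) - ((harmonic n : ℝ) - Real.log n - 1 / (2 * n))) =
      (1 / (2 * (n : ℝ)) + 1 / (2 * ((n : ℝ) + 1))) -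
        (Real.log ((n : ℝ) + 1) - Real.log n) by field_simp; ring,
    ← Real.log_div (by linarith) hn0.ne']
  set y := ((n : ℝ) + 1) / n with hy
  have hy1 : 1 < y := by rw [hy, lt_div_iff₀ hn0]; linarith
  -- between the Padé bounds of `log y`
  have hup : Real.log y ≤ (y - 1 / y) / 2 := by
    have hmain : Real.log y ≤ y - 1 - (y - 1) ^ 2 / (2 * y) := by
      have hmono : MonotoneOn (fun t : ℝ => (t - 1 / t) / 2 - Real.log t) (Set.Ici 1) := by
        refine monotoneOn_of_hasDerivWithinAt_nonneg (convex_Ici 1) ?_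
          (f' := fun t => (1 + 1 / t ^ 2) / 2 - 1 / t) ?_ ?_
        · intro t ht
          have : t ≠ 0 := by linarith [Set.mem_Ici.1 ht]
          exact ((((continuousAt_id).sub (continuousAt_const.div continuousAt_id this)).div_const
            2).sub (Real.continuousAt_log this)).continuousWithinAt
        · intro t ht
          rw [interior_Ici] at ht
          have ht0 : t ≠ 0 := by linarith [Set.mem_Ioi.1 ht]
          refine (((((hasDerivAt_id' t).sub ((hasDerivAt_inv ht0))).div_const 2).sub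
            (Real.hasDerivAt_log ht0)).congr_deriv ?_).hasDerivWithinAt.congr
              (fun u _ => by simp [one_div]) (by simp [one_div])
          field_simp
          ring
        · intro t ht
          rw [interior_Ici] at ht
          have ht0 : (0 : ℝ) < t := by linarith [Set.mem_Ioi.1 ht]
          rw [show (1 + 1 / t ^ 2) / 2 - 1 / t = (1 - 1 / t) ^ 2 / 2 by field_simp; ring]
          positivity
      have h1 := hmono (Set.self_mem_Ici) (Set.mem_Ici.2 hy1.le) hy1.le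
      simp at h1
      rw [show y - 1 - (y - 1) ^ 2 / (2 * y) = (y - y⁻¹) / 2 by field_simp; ring]
      linarith
    rw [show (y - 1 / y) / 2 = y - 1 - (y - 1) ^ 2 / (2 * y) by field_simp; ring]
    exact hmain
  have hlo : 2 * (y - 1) / (y + 1) ≤ Real.log y := by
    have hmono : MonotoneOn (fun t : ℝ => Real.log t - 2 * (t - 1) / (t + 1)) (Set.Ici 1) := by
      refine monotoneOn_of_hasDerivWithinAt_nonneg (convex_Ici 1) ?_
        (f' := fun t => 1 / t - 4 / (t + 1) ^ 2) ?_ ?_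
      · intro t ht
        have : t ≠ 0 := by linarith [Set.mem_Ici.1 ht]
        have h2 : t + 1 ≠ 0 := by linarith [Set.mem_Ici.1 ht]
        exact ((Real.continuousAt_log this).sub (((continuousAt_const.mul (continuousAt_id.sub
          continuousAt_const))).div (continuousAt_id.add continuousAt_const) h2)).continuousWithinAt
      · intro t ht
        rw [interior_Ici] at ht
        have ht0 : t ≠ 0 := by linarith [Set.mem_Ioi.1 ht]
        have h2 : t + 1 ≠ 0 := by linarith [Set.mem_Ioi.1 ht]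
        refine (((Real.hasDerivAt_log ht0).sub ((((hasDerivAt_id' t).sub_const 1).const_mul
          2).div ((hasDerivAt_id' t).add_const 1) h2)).congr_deriv ?_).hasDerivWithinAt
        field_simp
        ring
      · intro t ht
        rw [interior_Ici] at ht
        have ht0 : (0 : ℝ) < t := by linarith [Set.mem_Ioi.1 ht]
        rw [sub_nonneg, div_le_div_iff₀ (by positivity) ht0]
        nlinarith [sq_nonneg (t - 1)]
    have h1 := hmono (Set.self_mem_Ici) (Set.mem_Ici.2 hy1.le) hy1.le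
    simp at h1
    linarith
  have e1 : (y - 1 / y) / 2 = 1 / (2 * (n : ℝ)) + 1 / (2 * ((n : ℝ) + 1)) := by
    rw [hy]; field_simp; ring
  have e2 : 2 * (y - 1) / (y + 1) = 2 / (2 * (n : ℝ) + 1) := by
    rw [hy]; field_simp; ring
  rw [e1] at hup
  rw [e2] at hlo
  rw [abs_of_nonneg (by linarith)]
  refine (sub_le_sub_left hlo _).trans ?_
  rw [div_add_div _ _ (by positivity) (by positivity), div_sub_div _ _ (by positivity)
    (by positivity), div_sub_div _ _ (by positivity) (by positivity), mul_div_assoc',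
    div_le_div_iff₀ (by positivity) (by positivity)]
  nlinarith [pow_pos hn0 3, pow_pos hn0 4, pow_pos hn0 5, pow_pos hn0 2]

theorem abs_eulerErr_sub_le {n : ℕ} (hn : 1 ≤ n) :
    |eulerErr n - Real.eulerMascheroniConstant| ≤ 3 / (n : ℝ) ^ 2 := by
  have hlim : Tendsto eulerErr atTop (𝓝 Real.eulerMascheroniConstant) := by
    have h0 : Tendsto (fun m : ℕ => 1 / (2 * (m : ℝ))) atTop (𝓝 0) := by
      simpa [one_div, mul_comm] using
        (tendsto_one_div_atTop_nhds_zero_nat (𝕜 := ℝ)).mul_const (2⁻¹ : ℝ)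
    have h := Real.tendsto_harmonic_sub_log.sub h0
    rw [sub_zero] at h
    exact h
  have hbd : ∀ m, n ≤ m →
      |eulerErr m - eulerErr n| ≤ 3 * (1 / (n : ℝ) ^ 2 - 1 / (m : ℝ) ^ 2) := by
    intro m hm
    induction m, hm using Nat.le_induction with
    | base => simp
    | succ m hm ih =>
      refine (abs_sub_le _ (eulerErr m) _).trans
        ((add_le_add (abs_eulerErr_step (hn.trans hm)) ih).trans (le_of_eq ?_))
      push_cast
      ring
  refine le_of_tendsto ((tendsto_const_nhds.sub hlim).abs) ?_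
  refine eventually_atTop.2 ⟨n, fun m hm => ?_⟩
  rw [abs_sub_comm]
  refine (hbd m hm).trans ?_
  have : (0 : ℝ) ≤ 1 / (m : ℝ) ^ 2 := by positivity
  rw [div_eq_mul_one_div (3 : ℝ)]
  linarith

/-- Dirichlet's hyperbola. -/
theorem sum_card_divisors (N : ℕ) :
    ∑ n ∈ Icc 1 N, n.divisors.card + Nat.sqrt N * Nat.sqrt N =
      2 * ∑ i ∈ Icc 1 (Nat.sqrt N), N / i := by
  classical
  set X := Nat.sqrt N
  have hsq : ∑ n ∈ Icc 1 N, (n.divisors.filter fun d => d * d = n).card = X := by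
    have h1 : ∀ n ∈ Icc 1 N, (n.divisors.filter fun d => d * d = n) =
        (Icc 1 X).filter fun d => d * d = n := by
      intro n hn
      ext d
      simp only [mem_filter, Nat.mem_divisors, mem_Icc]
      refine ⟨fun ⟨_, h⟩ => ⟨⟨?_, Nat.le_sqrt.2 (h ▸ (mem_Icc.1 hn).2)⟩, h⟩,
        fun ⟨_, h⟩ => ⟨⟨⟨d, h.symm⟩, by have := (mem_Icc.1 hn).1; omega⟩, h⟩⟩
      have := (mem_Icc.1 hn).1
      rcases Nat.eq_zero_or_pos d with rfl | hd
      · simp at h; omega
      · exact hd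
    rw [Finset.sum_congr rfl fun n hn => congrArg card (h1 n hn)]
    simp only [Finset.card_filter]
    rw [Finset.sum_comm, Finset.sum_congr rfl (g := fun _ => 1) fun d hd => ?_, Finset.sum_const,
      Nat.card_Icc]
    · simp
    · rw [Finset.sum_ite_eq, if_pos]
      rw [mem_Icc]
      have h := (mem_Icc.1 hd)
      exact ⟨Nat.mul_pos h.1 h.1, Nat.le_sqrt.1 h.2⟩
  have hlow : ∑ n ∈ Icc 1 N, (n.divisors.filter fun d => d * d ≤ n).card + ∑ i ∈ Icc 1 X, i =
      ∑ i ∈ Icc 1 X, N / i + X := by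
    have h1 : ∀ n ∈ Icc 1 N, (n.divisors.filter fun d => d * d ≤ n) =
        (Icc 1 X).filter fun d => d ∣ n ∧ d * d ≤ n := by
      intro n hn
      ext d
      simp only [mem_filter, Nat.mem_divisors, mem_Icc]
      refine ⟨fun ⟨⟨hd, _⟩, h⟩ => ⟨⟨Nat.pos_of_dvd_of_pos hd (mem_Icc.1 hn).1,
        Nat.le_sqrt.2 (h.trans (mem_Icc.1 hn).2)⟩, hd, h⟩,
        fun ⟨_, hd, h⟩ => ⟨⟨hd, by have := (mem_Icc.1 hn).1; omega⟩, h⟩⟩
    rw [Finset.sum_congr rfl fun n hn => congrArg card (h1 n hn)]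
    simp only [Finset.card_filter]
    rw [Finset.sum_comm, ← Finset.sum_add_distrib]
    rw [show ∑ i ∈ Icc 1 X, N / i + X = ∑ i ∈ Icc 1 X, (N / i + 1) by
      rw [Finset.sum_add_distrib, Finset.sum_const, Nat.card_Icc]; simp]
    refine Finset.sum_congr rfl fun d hd => ?_
    have hd1 := (mem_Icc.1 hd).1
    have hdN : d ≤ N / d := (Nat.le_div_iff_mul_le hd1).2 (Nat.le_sqrt.1 (mem_Icc.1 hd).2)
    rw [← Finset.card_filter]
    have hcard : ((Icc 1 N).filter fun n => d ∣ n ∧ d * d ≤ n) =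
        (Icc d (N / d)).image fun e => d * e := by
      ext n
      simp only [mem_filter, mem_Icc, mem_image]
      constructor
      · rintro ⟨⟨hn1, hn2⟩, ⟨e, rfl⟩, h⟩
        exact ⟨e, ⟨Nat.le_of_mul_le_mul_left h hd1,
          (Nat.le_div_iff_mul_le hd1).2 (by rwa [mul_comm])⟩, rfl⟩
      · rintro ⟨e, ⟨he1, he2⟩, rfl⟩
        refine ⟨⟨Nat.mul_pos hd1 (by omega), ?_⟩, dvd_mul_right d e, Nat.mul_le_mul_left d he1⟩
        rw [mul_comm]
        exact (Nat.le_div_iff_mul_le hd1).1 he2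
    rw [hcard, Finset.card_image_of_injective _ (fun a b h => Nat.eq_of_mul_eq_mul_left hd1 h),
      Nat.card_Icc]
    omega
  have hcomb := Finset.sum_congr (rfl : Icc 1 N = Icc 1 N) fun n hn =>
    FA.PrimesMinusOne.card_divisors_add (mem_Icc.1 hn).1
  rw [Finset.sum_add_distrib, hsq, ← Finset.mul_sum] at hcomb
  have hid : 2 * ∑ i ∈ Icc 1 X, i = X * (X + 1) := by
    clear hsq hlow hcomb
    induction X with
    | zero => simp
    | succ X ih => rw [Finset.sum_Icc_succ_top (Nat.le_add_left 1 X), mul_add, ih]; ring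
  rw [Nat.mul_add, mul_one] at hid
  omega

/-- The sum of the sawtooth along the hyperbola. -/
theorem abs_sum_saw_div_le {N : ℕ} (hN : 1 ≤ N) : ∀ X : ℕ, X * X ≤ N →
    |∑ i ∈ Icc 1 X, saw ((N : ℝ) / i)| ≤
      (Nat.log 2 X + 1) *
        ((16 * 32 + 7) * (8 * 32 + 38) * (8 * (N : ℝ) ^ ((1 : ℝ) / 3) * (2 + Real.log N)) + 1) := by
  set B : ℝ :=
    (16 * 32 + 7) * (8 * 32 + 38) * (8 * (N : ℝ) ^ ((1 : ℝ) / 3) * (2 + Real.log N)) + 1 with hB
  have hNR : (1 : ℝ) ≤ N := Nat.one_le_cast.2 hN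
  have hlogN := Real.log_nonneg hNR
  have hB0 : 0 ≤ B := by rw [hB]; positivity
  intro X
  induction X using Nat.strong_induction_on with
  | h X ih =>
    intro hX
    rcases Nat.lt_or_ge X 2 with hlt | hge
    · refine le_trans ((Finset.abs_sum_le_sum_abs _ _).trans
        (Finset.sum_le_sum fun i _ => abs_saw_le _)) ?_
      rw [Finset.sum_const, Nat.card_Icc, nsmul_eq_mul]
      have : ((X + 1 - 1 : ℕ) : ℝ) ≤ 1 := Nat.cast_le_one.2 (by omega)
      have hl : (0 : ℝ) ≤ (Nat.log 2 X : ℝ) := Nat.cast_nonneg _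
      have hB1 : 1 ≤ B := by
        rw [hB]
        exact le_add_of_nonneg_left (by positivity)
      nlinarith
    set h := X / 2 with hh
    have hhX : h * h ≤ N := (Nat.mul_le_mul (Nat.div_le_self X 2) (Nat.div_le_self X 2)).trans hX
    have hlog : Nat.log 2 h + 1 = Nat.log 2 X := by
      rw [hh, Nat.log_div_base]
      have : 1 ≤ Nat.log 2 X := Nat.le_log_of_pow_le one_lt_two (by simpa using hge)
      omega
    rw [show Icc 1 X = Icc 1 h ∪ Ico (h + 1) (X + 1) by
      ext i; simp only [mem_union, mem_Icc, mem_Ico]; omega,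
      Finset.sum_union (Finset.disjoint_left.2 fun i ha hb => by
        simp only [mem_Icc, mem_Ico] at ha hb; omega)]
    refine (abs_add_le _ _).trans ?_
    have hrec := ih h (by omega) hhX
    rw [← hlog]
    push_cast
    rw [show ((Nat.log 2 h : ℝ) + 1 + 1) * B = ((Nat.log 2 h : ℝ) + 1) * B + B by ring]
    refine add_le_add hrec ?_
    -- one dyadic range
    set Y : ℝ := ((X + 1 : ℕ) : ℝ) with hY
    have hY0 : 0 < Y := Nat.cast_pos.2 (Nat.succ_pos X)
    have hNcube : ((N : ℝ) ^ ((1 : ℝ) / 3)) ^ 3 = N := by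
      rw [← Real.rpow_natCast (_ ^ _) 3, ← Real.rpow_mul (by linarith)]
      norm_num
    have hN3 : 0 < (N : ℝ) ^ ((1 : ℝ) / 3) := Real.rpow_pos_of_pos (by linarith) _
    set μ := (N : ℝ) ^ ((1 : ℝ) / 3) / Y with hμ
    have hμ0 : 0 < μ := div_pos hN3 hY0
    have hmem : ∀ x ∈ Set.Icc ((h + 1 : ℕ) : ℝ) Y, Y / 2 ≤ x ∧ 0 < x ∧ x ≤ Y := fun x hx => by
      have h1 : Y ≤ 2 * ((h + 1 : ℕ) : ℝ) := by
        rw [hY]; exact_mod_cast (show X + 1 ≤ 2 * (h + 1) by omega)
      have := hx.1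
      exact ⟨by linarith, lt_of_lt_of_le (Nat.cast_pos.2 h.succ_pos) hx.1, hx.2⟩
    have hcurve : IsCurve (fun x => (N : ℝ) / x) (fun x => -(N : ℝ) / x ^ 2) 32 μ (h + 1)
        (X + 1) := by
      refine ⟨fun x hx => ?_, fun x hx y hy => ?_⟩
      · obtain ⟨-, hx0, -⟩ := hmem x hx
        exact (((hasDerivAt_inv hx0.ne').const_mul (N : ℝ)).congr_deriv (by field_simp))
          |>.congr_of_eventuallyEq (Filter.Eventually.of_forall fun u => div_eq_mul_inv _ _)
      · obtain ⟨hx1, hx0, hx2⟩ := hmem x hx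
        obtain ⟨hy1, hy0, hy2⟩ := hmem y hy
        rw [show -(N : ℝ) / x ^ 2 - -(N : ℝ) / y ^ 2 =
            (x - y) * ((N : ℝ) * (x + y) / (x ^ 2 * y ^ 2)) by field_simp; ring, abs_mul,
          abs_of_pos (show (0 : ℝ) < (N : ℝ) * (x + y) / (x ^ 2 * y ^ 2) by positivity),
          hμ, div_pow, hNcube]
        have hlo : (N : ℝ) / Y ^ 3 ≤ (N : ℝ) * (x + y) / (x ^ 2 * y ^ 2) := by
          rw [div_le_div_iff₀ (by positivity) (by positivity)]
          have h1 : x ^ 2 * y ^ 2 ≤ (x + y) * Y ^ 3 := by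
            calc x ^ 2 * y ^ 2 ≤ Y ^ 2 * Y ^ 2 := by gcongr
              _ = Y * Y ^ 3 := by ring
              _ ≤ (x + y) * Y ^ 3 := mul_le_mul_of_nonneg_right (by linarith) (by positivity)
          calc (N : ℝ) * (x ^ 2 * y ^ 2) ≤ (N : ℝ) * ((x + y) * Y ^ 3) :=
                mul_le_mul_of_nonneg_left h1 (by linarith)
            _ = (N : ℝ) * (x + y) * Y ^ 3 := by ring
        have hhi : (N : ℝ) * (x + y) / (x ^ 2 * y ^ 2) ≤ 32 * ((N : ℝ) / Y ^ 3) := by
          rw [mul_div_assoc', div_le_div_iff₀ (by positivity) (by positivity)]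
          have h1 : (x + y) * Y ^ 3 ≤ 32 * (x ^ 2 * y ^ 2) := by
            calc (x + y) * Y ^ 3 ≤ (2 * Y) * Y ^ 3 :=
                  mul_le_mul_of_nonneg_right (by linarith) (by positivity)
              _ = 32 * ((Y / 2) ^ 2 * (Y / 2) ^ 2) := by ring
              _ ≤ 32 * (x ^ 2 * y ^ 2) := by gcongr
          calc (N : ℝ) * (x + y) * Y ^ 3 = (N : ℝ) * ((x + y) * Y ^ 3) := by ring
            _ ≤ (N : ℝ) * (32 * (x ^ 2 * y ^ 2)) := mul_le_mul_of_nonneg_left h1 (by linarith)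
            _ = 32 * (N : ℝ) * (x ^ 2 * y ^ 2) := by ring
        constructor
        · rw [mul_comm]; exact mul_le_mul_of_nonneg_left hlo (abs_nonneg _)
        · rw [mul_comm (32 * _)]; exact mul_le_mul_of_nonneg_left hhi (abs_nonneg _)
    have hmain := abs_sum_saw_le (by norm_num) hμ0 (show h + 1 ≤ X + 1 by omega) hcurve
    refine hmain.trans (le_trans ?_ (le_add_of_nonneg_right zero_le_one))
    refine mul_le_mul_of_nonneg_left ?_ (by norm_num)
    have hlogμ : |Real.log μ| ≤ 1 + Real.log N := by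
      rw [hμ, Real.log_div hN3.ne' hY0.ne', Real.log_rpow (by linarith)]
      have h1 : 0 ≤ Real.log Y := Real.log_nonneg (by rw [hY]; exact_mod_cast X.succ_pos)
      have h2 : Real.log Y ≤ Real.log 2 + Real.log N := by
        rw [← Real.log_mul two_ne_zero (by linarith)]
        refine Real.log_le_log hY0 ?_
        rw [hY]
        have : X + 1 ≤ 2 * N := by nlinarith
        exact_mod_cast this
      have := Real.log_le_sub_one_of_pos (show (0 : ℝ) < 2 by norm_num)
      rw [abs_le]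
      constructor <;> linarith
    have hLμ : (((X + 1 : ℕ) : ℝ) - ((h + 1 : ℕ) : ℝ)) * μ ≤ (N : ℝ) ^ ((1 : ℝ) / 3) := by
      have h1 : (((X + 1 : ℕ) : ℝ) - ((h + 1 : ℕ) : ℝ)) * μ ≤ Y * μ :=
        mul_le_mul_of_nonneg_right (by
          rw [hY]
          linarith [(Nat.cast_nonneg (h + 1) : (0 : ℝ) ≤ ((h + 1 : ℕ) : ℝ))]) hμ0.le
      rwa [hμ, mul_div_cancel₀ _ hY0.ne'] at h1
    have hμ2 : 1 / μ ^ 2 ≤ 4 * (N : ℝ) ^ ((1 : ℝ) / 3) := by
      rw [hμ, div_pow, one_div_div, div_le_iff₀ (by positivity), mul_assoc, ← pow_succ', hNcube]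
      have h4 : ((X + 1) * (X + 1) : ℕ) ≤ 4 * N := by nlinarith
      calc Y ^ 2 = (((X + 1) * (X + 1) : ℕ) : ℝ) := by rw [hY]; push_cast; ring
        _ ≤ ((4 * N : ℕ) : ℝ) := Nat.cast_le.2 h4
        _ = 4 * (N : ℝ) := by push_cast; ring
    have h5 := mul_le_mul hLμ (show 1 + |Real.log μ| ≤ 2 + Real.log N by linarith) (by positivity)
      hN3.le
    nlinarith

/-- **Voronoi: the divisor problem with exponent `1/3`.** -/
theorem exists_divisor_bound : ∃ C : ℝ, ∀ N : ℕ, 1 ≤ N →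
    |(∑ n ∈ Icc 1 N, (n.divisors.card : ℝ)) -
        (N * Real.log N + (2 * Real.eulerMascheroniConstant - 1) * N)| ≤
      C * (N : ℝ) ^ ((1 : ℝ) / 3) * (1 + Real.log N) ^ 2 := by
  set K : ℝ := (16 * 32 + 7) * (8 * 32 + 38)
  refine ⟨2 * (4 * (K * 16 + 1)) + 100, fun N hN => ?_⟩
  set X := Nat.sqrt N with hXdef
  have hX0 : 1 ≤ X := Nat.le_sqrt.2 (by simpa using hN)
  have hXR : (1 : ℝ) ≤ X := Nat.one_le_cast.2 hX0
  have hNR : (1 : ℝ) ≤ N := Nat.one_le_cast.2 hN
  have hlogN := Real.log_nonneg hNR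
  set r := √(N : ℝ) with hr
  have hr2 : r ^ 2 = N := Real.sq_sqrt (by positivity)
  have h1 : (X : ℝ) ≤ r := Real.nat_sqrt_le_real_sqrt
  have h2 : r ≤ X + 1 := Real.real_sqrt_le_nat_sqrt_succ
  -- the sawtooth
  have hsaw := abs_sum_saw_div_le hN X (Nat.sqrt_le N)
  have hlogX : (Nat.log 2 X : ℝ) + 1 ≤ 4 * (1 + Real.log N) := by
    have hpow : 2 ^ Nat.log 2 X ≤ N :=
      (Nat.pow_log_le_self 2 (by omega)).trans (Nat.sqrt_le_self N)
    have h : (Nat.log 2 X : ℝ) * Real.log 2 ≤ Real.log N := by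
      rw [← Real.log_pow]
      exact Real.log_le_log (by positivity) (by exact_mod_cast hpow)
    have h' : (1 : ℝ) / 2 ≤ Real.log 2 := by
      have := Real.one_sub_inv_le_log_of_pos (show (0 : ℝ) < 2 by norm_num)
      norm_num at this ⊢
      linarith
    nlinarith [(Nat.cast_nonneg (Nat.log 2 X) : (0 : ℝ) ≤ (Nat.log 2 X : ℝ))]
  set P := (N : ℝ) ^ ((1 : ℝ) / 3) * (1 + Real.log N) ^ 2
  have hc1 : (1 : ℝ) ≤ (N : ℝ) ^ ((1 : ℝ) / 3) := Real.one_le_rpow hNR (by norm_num)
  have hP : 1 ≤ P := one_le_mul_of_one_le_of_one_le hc1 (one_le_pow₀ (by linarith))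
  have hsaw' : |∑ i ∈ Icc 1 X, saw ((N : ℝ) / i)| ≤ 4 * (K * 16 + 1) * P := by
    refine hsaw.trans ?_
    have e1 : K * (8 * (N : ℝ) ^ ((1 : ℝ) / 3) * (2 + Real.log N)) + 1 ≤
        (K * 16 + 1) * ((N : ℝ) ^ ((1 : ℝ) / 3) * (1 + Real.log N)) := by
      have : (1 : ℝ) ≤ (N : ℝ) ^ ((1 : ℝ) / 3) * (1 + Real.log N) :=
        one_le_mul_of_one_le_of_one_le hc1 (by linarith)
      have hK : 0 ≤ K * ((N : ℝ) ^ ((1 : ℝ) / 3)) := by positivity
      nlinarith [mul_nonneg hK hlogN]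
    calc _ ≤ (4 * (1 + Real.log N)) *
          ((K * 16 + 1) * ((N : ℝ) ^ ((1 : ℝ) / 3) * (1 + Real.log N))) :=
          mul_le_mul hlogX e1 (by positivity) (by positivity)
      _ = 4 * (K * 16 + 1) * P := by simp only [P]; ring
  -- the count
  have hcount : ∑ n ∈ Icc 1 N, (n.divisors.card : ℝ) =
      2 * (N * ∑ i ∈ Icc 1 X, ((i : ℝ))⁻¹ - X / 2 - ∑ i ∈ Icc 1 X, saw ((N : ℝ) / i)) -
        X * X := by
    have h := congrArg (Nat.cast : ℕ → ℝ) (sum_card_divisors N)
    push_cast at h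
    rw [← hXdef] at h
    have hf : ∀ i ∈ Icc 1 X, ((N / i : ℕ) : ℝ) = N * (i : ℝ)⁻¹ - 1 / 2 - saw ((N : ℝ) / i) :=
      fun i _ => by
        rw [← div_eq_mul_inv, ← floor_eq_sub_saw, ← Nat.floor_div_eq_div (K := ℝ),
          natCast_floor_eq_intCast_floor (by positivity)]
    rw [Finset.sum_congr rfl hf, Finset.sum_sub_distrib, Finset.sum_sub_distrib, ← Finset.mul_sum,
      Finset.sum_const, Nat.card_Icc, Nat.add_sub_cancel, nsmul_eq_mul] at h
    linarith
  have hH : ∑ i ∈ Icc 1 X, ((i : ℝ))⁻¹ = eulerErr X + Real.log X + 1 / (2 * X) := by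
    rw [eulerErr, harmonic_eq_sum_Icc]
    push_cast
    ring
  set θ := r - X with hθ
  have hθ0 : 0 ≤ θ := by rw [hθ]; linarith
  have hθ1 : θ ≤ 1 := by rw [hθ]; linarith
  have hXpos : (0 : ℝ) < X := by linarith
  have hr0 : 0 < r := by linarith
  have hlogr : Real.log r = Real.log N / 2 := by rw [hr, Real.log_sqrt (by positivity)]
  -- `log X` up to `O(1/N)`
  have hη : |Real.log X - (Real.log N / 2 - θ / r)| ≤ 4 / N := by
    rw [← hlogr]
    have e1 := Real.log_le_sub_one_of_pos (show (0 : ℝ) < X / r by positivity)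
    have e2 := Real.log_le_sub_one_of_pos (show (0 : ℝ) < r / X by positivity)
    rw [Real.log_div (by positivity) (by positivity)] at e1 e2
    have f1 : (X : ℝ) / r - 1 = -(θ / r) := by rw [hθ]; field_simp; ring
    have f2 : r / X - 1 = θ / r + θ ^ 2 / (X * r) := by rw [hθ]; field_simp; ring
    have f3 : θ ^ 2 / (X * r) ≤ 4 / N := by
      rw [div_le_div_iff₀ (by positivity) (by positivity), ← hr2]
      have : r ≤ 2 * X := by linarith
      nlinarith [mul_le_mul_of_nonneg_left this hr0.le, pow_le_one₀ hθ0 hθ1 (n := 2)]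
    rw [abs_le]
    constructor <;> linarith [show (0 : ℝ) ≤ 4 / N by positivity]
  have hε := abs_eulerErr_sub_le hX0
  have hε' : |eulerErr X - Real.eulerMascheroniConstant| ≤ 12 / N := by
    refine hε.trans ?_
    rw [div_le_div_iff₀ (by positivity) (by positivity), ← hr2]
    have : r ≤ 2 * X := by linarith
    nlinarith [mul_le_mul this this hr0.le (by positivity)]
  have hmain : ∑ n ∈ Icc 1 N, (n.divisors.card : ℝ) -
      (N * Real.log N + (2 * Real.eulerMascheroniConstant - 1) * N) =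
      2 * N * (eulerErr X - Real.eulerMascheroniConstant) +
        2 * N * (Real.log X - (Real.log N / 2 - θ / r)) + (θ ^ 2 / X - θ ^ 2 + 2 * θ) -
        2 * ∑ i ∈ Icc 1 X, saw ((N : ℝ) / i) := by
    rw [hcount, hH]
    have e1 : (N : ℝ) * (θ / r) = r * θ := by
      rw [← hr2]; field_simp
    have e2 : (N : ℝ) / X = X + 2 * θ + θ ^ 2 / X := by
      rw [← hr2, hθ]; field_simp; ring
    have e3 : (N : ℝ) = (X + θ) ^ 2 := by rw [← hr2, hθ]; ring
    have e4 : (N : ℝ) * (1 / (2 * X)) = N / X / 2 := by ring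
    have e5 : r * θ = (X + θ) * θ := by rw [hθ]; ring
    linear_combination -2 * e1 + 2 * e4 + e2 + e3 - 2 * e5
  rw [hmain, mul_assoc]
  have t1 : |2 * (N : ℝ) * (eulerErr X - Real.eulerMascheroniConstant)| ≤ 24 := by
    rw [abs_mul, abs_of_nonneg (by positivity : (0 : ℝ) ≤ 2 * N)]
    refine (mul_le_mul_of_nonneg_left hε' (by positivity)).trans (le_of_eq ?_)
    field_simp; norm_num
  have t2 : |2 * (N : ℝ) * (Real.log X - (Real.log N / 2 - θ / r))| ≤ 8 := by
    rw [abs_mul, abs_of_nonneg (by positivity : (0 : ℝ) ≤ 2 * N)]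
    refine (mul_le_mul_of_nonneg_left hη (by positivity)).trans (le_of_eq ?_)
    field_simp; norm_num
  have t3 : |θ ^ 2 / X - θ ^ 2 + 2 * θ| ≤ 3 := by
    have a1 : θ ^ 2 / X ≤ 1 := by
      rw [div_le_one hXpos]; nlinarith
    have a2 : θ ^ 2 ≤ 1 := pow_le_one₀ hθ0 hθ1
    have a3 : 0 ≤ θ ^ 2 / X := by positivity
    have a4 := sq_nonneg θ
    rw [abs_le]; constructor <;> linarith
  rw [abs_le] at t1 t2 t3 hsaw' ⊢
  constructor <;> linarith

end FA.CubeRootBounds

end
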