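import Mathlib.Analysis.SpecialFunctions.Pow.Real
import Mathlib.Analysis.Calculus.Deriv.MeanValue
import Mathlib.Data.ZMod.Basic
import Mathlib.NumberTheory.DiophantineApproximation.Basic
import Mathlib.NumberTheory.Harmonic.Bounds

/-!
# The sawtooth along a curve

If the derivative `g` of `f` grows at a rate between `μ³` and `A μ³`, cutting the range into blocks
of length `q`, on each of which `f` is within `O(1/q)` of a line of slope `a/q`, gives
`∑ ψ (f n) = O (L μ (1 + |log μ|) + μ⁻²)` (Vinogradov).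
-/

set_option autoImplicit false

noncomputable section

namespace FA.CubeRootBounds

open Finset

/-- `{x} - 1/2`. -/
def saw (x : ℝ) : ℝ := Int.fract x - 1 / 2

theorem abs_saw_le (x : ℝ) : |saw x| ≤ 1 / 2 := by
  have h1 := Int.fract_nonneg x
  have h2 := Int.fract_lt_one x
  rw [saw, abs_le]
  constructor <;> linarith

theorem floor_eq_sub_saw (x : ℝ) : (⌊x⌋ : ℝ) = x - 1 / 2 - saw x := by
  rw [saw, Int.fract]
  ring

/-- The residues of an arithmetic progression of step prime to `q`. -/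
theorem sum_floor_progression {q : ℕ} (hq : 0 < q) {a : ℤ} (ha : Int.gcd a q = 1) (k : ℤ) :
    ((∑ h ∈ range q, ⌊(((k + a * h : ℤ)) : ℝ) / q⌋ : ℤ) : ℝ) =
      k + (a - 1) * ((q : ℝ) - 1) / 2 := by
  have hqR : (q : ℝ) ≠ 0 := Nat.cast_ne_zero.2 hq.ne'
  have : NeZero q := ⟨hq.ne'⟩
  have hfloor : ∀ m : ℤ, (⌊(m : ℝ) / q⌋ : ℝ) = (m : ℝ) / q - ((m : ZMod q).val : ℝ) / q := by
    intro m
    have hv : ((m : ZMod q).val : ℤ) = m % q := ZMod.val_intCast m
    have h : (m : ℝ) = q * ((m / q : ℤ) : ℝ) + ((m : ZMod q).val : ℝ) := by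
      have := (Int.mul_ediv_add_emod m q).symm
      rw [← hv] at this
      exact_mod_cast this
    have hv0 : (0 : ℝ) ≤ ((m : ZMod q).val : ℝ) := Nat.cast_nonneg _
    have hv1 : ((m : ZMod q).val : ℝ) + 1 ≤ q := by exact_mod_cast ZMod.val_lt (m : ZMod q)
    have hd : ⌊(m : ℝ) / q⌋ = m / (q : ℤ) := by
      have hq' : (0 : ℝ) < q := Nat.cast_pos.2 hq
      rw [Int.floor_eq_iff, le_div_iff₀ hq', div_lt_iff₀ hq']
      constructor <;> nlinarith
    rw [hd]
    field_simp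
    linarith
  have hres : ∑ h ∈ range q, (((k + a * h : ℤ) : ZMod q).val : ℝ) = ∑ i ∈ range q, (i : ℝ) := by
    have hcop : IsCoprime a (q : ℤ) := Int.isCoprime_iff_gcd_eq_one.2 ha
    have hu : IsUnit (a : ZMod q) := by
      obtain ⟨x, y, hxy⟩ := hcop
      refine IsUnit.of_mul_eq_one_right (x : ZMod q) ?_
      have := congrArg (Int.cast : ℤ → ZMod q) hxy
      simpa using this
    refine Finset.sum_bij (fun h _ => ((k + a * h : ℤ) : ZMod q).val)
      (fun h _ => mem_range.2 (ZMod.val_lt _)) (fun h₁ h₁' h₂ h₂' e => ?_) (fun i hi => ?_)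
      fun h _ => rfl
    · have e' := ZMod.val_injective q e
      push_cast at e'
      have := hu.mul_left_cancel (add_left_cancel e')
      rw [ZMod.natCast_eq_natCast_iff'] at this
      rwa [Nat.mod_eq_of_lt (mem_range.1 h₁'), Nat.mod_eq_of_lt (mem_range.1 h₂')] at this
    · refine ⟨((hu.unit⁻¹ : (ZMod q)ˣ) * ((i : ZMod q) - (k : ZMod q))).val,
        mem_range.2 (ZMod.val_lt _), ?_⟩
      push_cast
      rw [ZMod.natCast_zmod_val, ← mul_assoc, IsUnit.mul_val_inv, one_mul, add_sub_cancel,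
        ZMod.val_natCast, Nat.mod_eq_of_lt (mem_range.1 hi)]
  have hid : (∑ i ∈ range q, (i : ℝ)) * 2 = q * ((q : ℝ) - 1) := by
    have h := congrArg (Nat.cast : ℕ → ℝ) (Finset.sum_range_id_mul_two q)
    push_cast [Nat.cast_sub hq] at h
    linarith
  rw [Int.cast_sum, Finset.sum_congr (s₁ := range q) rfl fun h _ => hfloor (k + a * h),
    Finset.sum_sub_distrib,
    ← Finset.sum_div, ← Finset.sum_div, hres]
  push_cast
  rw [Finset.sum_add_distrib, ← Finset.mul_sum, Finset.sum_const, card_range, nsmul_eq_mul]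
  field_simp
  linear_combination ((a : ℝ) - 1) * hid

/-- **One block.** -/
theorem abs_sum_block_le {q : ℕ} (hq : 0 < q) {a : ℤ} (ha : Int.gcd a q = 1) (x : ℕ → ℝ) {C : ℝ}
    (hx : ∀ h < q, |(x h - x 0) * q - a * h| ≤ C) :
    |∑ h ∈ range q, saw (x h)| ≤ 2 * C + 5 := by
  have hqR : (0 : ℝ) < q := Nat.cast_pos.2 hq
  have hC : 0 ≤ C := (abs_nonneg _).trans (hx 0 hq)
  set b := ⌊x 0 * q⌋
  set c : ℤ := ⌈C⌉ + 1
  have hc : C + 1 ≤ c := by
    have := Int.le_ceil C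
    simp only [c, Int.cast_add, Int.cast_one]
    linarith
  have hb1 := Int.floor_le (x 0 * q)
  have hb2 := Int.lt_floor_add_one (x 0 * q)
  have hbd : ∀ h ∈ range q, (((b - c + a * h : ℤ)) : ℝ) / q ≤ x h ∧
      x h ≤ (((b + c + a * h : ℤ)) : ℝ) / q := by
    intro h hh
    obtain ⟨h1, h2⟩ := abs_le.1 (hx h (mem_range.1 hh))
    push_cast
    rw [div_le_iff₀ hqR, le_div_iff₀ hqR]
    constructor <;> nlinarith
  have hlo : ((∑ h ∈ range q, ⌊(((b - c + a * h : ℤ)) : ℝ) / q⌋ : ℤ) : ℝ) ≤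
      ((∑ h ∈ range q, ⌊x h⌋ : ℤ) : ℝ) :=
    Int.cast_le.2 (Finset.sum_le_sum fun h hh => Int.floor_le_floor (hbd h hh).1)
  have hhi : ((∑ h ∈ range q, ⌊x h⌋ : ℤ) : ℝ) ≤
      ((∑ h ∈ range q, ⌊(((b + c + a * h : ℤ)) : ℝ) / q⌋ : ℤ) : ℝ) :=
    Int.cast_le.2 (Finset.sum_le_sum fun h hh => Int.floor_le_floor (hbd h hh).2)
  rw [sum_floor_progression hq ha] at hlo hhi
  have hsum : ∀ k : ℤ, ∑ h ∈ range q, (((k + a * h : ℤ)) : ℝ) / q =
      k + a * ((q : ℝ) - 1) / 2 := by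
    intro k
    have h := congrArg (Nat.cast : ℕ → ℝ) (Finset.sum_range_id_mul_two q)
    push_cast [Nat.cast_sub hq] at h
    rw [← Finset.sum_div]
    push_cast
    rw [Finset.sum_add_distrib, ← Finset.mul_sum, Finset.sum_const, card_range, nsmul_eq_mul,
      div_eq_iff hqR.ne']
    linear_combination (a : ℝ) / 2 * h
  have hxlo : ∑ h ∈ range q, (((b - c + a * h : ℤ)) : ℝ) / q ≤ ∑ h ∈ range q, x h :=
    Finset.sum_le_sum fun h hh => (hbd h hh).1
  have hxhi : ∑ h ∈ range q, x h ≤ ∑ h ∈ range q, (((b + c + a * h : ℤ)) : ℝ) / q :=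
    Finset.sum_le_sum fun h hh => (hbd h hh).2
  rw [hsum] at hxlo hxhi
  have hdef : ∑ h ∈ range q, saw (x h) =
      ∑ h ∈ range q, x h - ((∑ h ∈ range q, ⌊x h⌋ : ℤ) : ℝ) - q / 2 := by
    simp only [saw, Int.fract, Finset.sum_sub_distrib, Finset.sum_const, card_range, nsmul_eq_mul,
      Int.cast_sum]
    ring
  have hc' : (c : ℝ) ≤ C + 2 := by
    have := Int.ceil_lt_add_one C
    simp only [c, Int.cast_add, Int.cast_one]
    linarith
  rw [hdef, abs_le]
  push_cast at hlo hhi hxlo hxhi ⊢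
  constructor <;> linarith

variable {f g : ℝ → ℝ} {A μ : ℝ}

/-- The hypotheses on the curve over `[M, N]`. -/
def IsCurve (f g : ℝ → ℝ) (A μ : ℝ) (M N : ℕ) : Prop :=
  (∀ x ∈ Set.Icc (M : ℝ) N, HasDerivAt f (g x) x) ∧
    ∀ x ∈ Set.Icc (M : ℝ) N, ∀ y ∈ Set.Icc (M : ℝ) N,
      μ ^ 3 * |x - y| ≤ |g x - g y| ∧ |g x - g y| ≤ A * μ ^ 3 * |x - y|

/-- The approximation of the slope at `n` with denominator at most `Q`. -/
def approxRat (g : ℝ → ℝ) (Q : ℕ) (n : ℕ) : ℚ :=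
  if h : 0 < Q then (Real.exists_rat_abs_sub_le_and_den_le (g n) h).choose else 0

theorem approxRat_spec (g : ℝ → ℝ) {Q : ℕ} (hQ : 0 < Q) (n : ℕ) :
    |g n - approxRat g Q n| ≤ 1 / ((Q : ℝ) * (approxRat g Q n).den) ∧
      (approxRat g Q n).den ≤ Q := by
  rw [approxRat, dif_pos hQ]
  obtain ⟨h1, h2⟩ := (Real.exists_rat_abs_sub_le_and_den_le (g n) hQ).choose_spec
  refine ⟨h1.trans ?_, h2⟩
  gcongr
  linarith

/-- **The greedy blocks.** -/
theorem exists_blocks (hA : 0 ≤ A) (hμ : 0 ≤ μ) {Q : ℕ} (hQ : 0 < Q)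
    (hQμ : μ ^ 3 * (Q : ℝ) ^ 3 ≤ 8) {M N : ℕ} (hf : IsCurve f g A μ M N) :
    ∀ d n : ℕ, n + d = N → M ≤ n → ∃ T : Finset ℕ, T ⊆ Ico n N ∧
      (∀ i ∈ T, ∀ j ∈ T, i < j → i + (approxRat g Q i).den ≤ j) ∧
      |∑ i ∈ Ico n N, saw (f i)| ≤ (16 * A + 7) * T.card + Q := by
  intro d
  induction d using Nat.strong_induction_on with
  | h d ih =>
    intro n hnd hMn
    set r := approxRat g Q n
    obtain ⟨hr, hrQ⟩ := approxRat_spec g hQ n
    have hq0 : 0 < r.den := r.den_pos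
    rcases le_or_gt (n + r.den) N with hle | hgt
    · obtain ⟨T, hT, hsep, hbd⟩ :=
        ih (d - r.den) (by omega) (n + r.den) (by omega) (hMn.trans (Nat.le_add_right _ _))
      have hnT : n ∉ T := fun h => by have := mem_Ico.1 (hT h); omega
      refine ⟨insert n T, ?_, ?_, ?_⟩
      · intro i hi
        rcases mem_insert.1 hi with rfl | hi
        · exact mem_Ico.2 ⟨le_rfl, by omega⟩
        · have := mem_Ico.1 (hT hi); exact mem_Ico.2 ⟨by omega, this.2⟩
      · intro i hi j hj hij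
        rcases mem_insert.1 hi with e | hi' <;> rcases mem_insert.1 hj with e' | hj'
        · omega
        · rw [e]; exact (mem_Ico.1 (hT hj')).1
        · have := mem_Ico.1 (hT hi'); omega
        · exact hsep i hi' j hj' hij
      · rw [← Finset.sum_Ico_consecutive _ (Nat.le_add_right n r.den) hle,
          Finset.sum_Ico_eq_sum_range, Nat.add_sub_cancel_left, card_insert_of_notMem hnT]
        refine (abs_add_le _ _).trans ?_
        have hblock : |∑ h ∈ range r.den, saw (f ((n + h : ℕ) : ℝ))| ≤ 2 * (1 + 8 * A) + 5 := by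
          refine abs_sum_block_le hq0 (a := r.num) (by
            rw [Int.gcd_eq_natAbs, Int.natAbs_natCast]; exact r.reduced)
            (fun h => f ((n + h : ℕ) : ℝ)) fun h hh => ?_
          rcases Nat.eq_zero_or_pos h with rfl | hh0
          · simp; nlinarith
          obtain ⟨ξ, hξ, hslope⟩ := exists_hasDerivAt_eq_slope f g
            (show (n : ℝ) < ((n + h : ℕ) : ℝ) by exact_mod_cast Nat.lt_add_of_pos_right hh0)
            (fun x hx => (hf.1 x ⟨(Nat.cast_le.2 hMn).trans hx.1,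
              hx.2.trans (Nat.cast_le.2 (by omega))⟩).continuousAt.continuousWithinAt)
            (fun x hx => hf.1 x ⟨(Nat.cast_le.2 hMn).trans hx.1.le,
              hx.2.le.trans (Nat.cast_le.2 (by omega))⟩)
          have hhR : (0 : ℝ) < h := Nat.cast_pos.2 hh0
          have hqR : (0 : ℝ) < r.den := Nat.cast_pos.2 hq0
          have hQR : (0 : ℝ) < Q := Nat.cast_pos.2 hQ
          have hqQ : (r.den : ℝ) ≤ Q := Nat.cast_le.2 hrQ
          have hhq : (h : ℝ) ≤ r.den := Nat.cast_le.2 hh.le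
          push_cast at hξ hslope ⊢
          rw [add_sub_cancel_left, eq_div_iff hhR.ne'] at hslope
          rw [add_zero, ← hslope]
          have hrr : (r.num : ℝ) = (r : ℝ) * r.den := by
            rw [Rat.cast_def]; field_simp
          have h1 : |g ξ - g n| ≤ A * μ ^ 3 * h := by
            refine (hf.2 ξ ⟨(Nat.cast_le.2 hMn).trans hξ.1.le, hξ.2.le.trans ?_⟩ n
              ⟨Nat.cast_le.2 hMn, Nat.cast_le.2 (by omega)⟩).2.trans ?_
            · exact_mod_cast (show n + h ≤ N by omega)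
            · refine mul_le_mul_of_nonneg_left ?_ (by positivity)
              rw [abs_of_pos (by linarith [hξ.1])]
              linarith [hξ.2]
          rw [show g ξ * h * r.den - r.num * h = h * r.den * ((g ξ - g n) + (g n - r)) by
            rw [hrr]; ring, abs_mul, abs_of_nonneg (by positivity : (0 : ℝ) ≤ h * r.den)]
          refine (mul_le_mul_of_nonneg_left ((abs_add_le _ _).trans (add_le_add h1 hr))
            (by positivity)).trans ?_
          have e1 : (h : ℝ) * r.den * (1 / ((Q : ℝ) * r.den)) ≤ 1 := by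
            rw [mul_one_div, div_le_one (by positivity)]
            exact mul_le_mul_of_nonneg_right (hhq.trans hqQ) hqR.le
          have e2 : (h : ℝ) * r.den * (A * μ ^ 3 * h) ≤ 8 * A := by
            have : (h : ℝ) * r.den * h ≤ (Q : ℝ) ^ 3 := by
              calc (h : ℝ) * r.den * h ≤ (Q : ℝ) * Q * Q := by
                    gcongr <;> linarith
                _ = (Q : ℝ) ^ 3 := by ring
            calc (h : ℝ) * r.den * (A * μ ^ 3 * h) = A * (μ ^ 3 * ((h : ℝ) * r.den * h)) := by ring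
              _ ≤ A * 8 := mul_le_mul_of_nonneg_left
                    ((mul_le_mul_of_nonneg_left this (by positivity)).trans hQμ) hA
              _ = 8 * A := by ring
          linarith [mul_add ((h : ℝ) * r.den) (A * μ ^ 3 * h) (1 / ((Q : ℝ) * r.den))]
        push_cast at hbd ⊢
        push_cast at hblock
        linarith
    · refine ⟨∅, empty_subset _, by simp, ?_⟩
      refine (Finset.abs_sum_le_sum_abs _ _).trans ?_
      refine (Finset.sum_le_sum fun i _ => abs_saw_le _).trans ?_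
      simp only [Finset.sum_const, Nat.card_Ico, nsmul_eq_mul, card_empty, Nat.cast_zero,
        mul_zero, zero_add]
      have : ((N - n : ℕ) : ℝ) ≤ Q := Nat.cast_le.2 (le_trans (show N - n ≤ r.den by omega) hrQ)
      linarith [(Nat.cast_nonneg (N - n) : (0 : ℝ) ≤ ((N - n : ℕ) : ℝ))]

/-- **The number of blocks.** -/
theorem card_blocks_le (hμ : 0 < μ) (hA : 0 ≤ A) {Q : ℕ} (hQ : 0 < Q) {M N : ℕ}
    (hf : IsCurve f g A μ M N) (hMN : M ≤ N) {T : Finset ℕ} (hT : T ⊆ Ico M N)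
    (hsep : ∀ i ∈ T, ∀ j ∈ T, i < j → i + (approxRat g Q i).den ≤ j) :
    (T.card : ℝ) ≤ ∑ q ∈ Icc 1 Q, ((q : ℝ) * (A * μ ^ 3 * ((N : ℝ) - M)) + 3) *
      (2 / ((q : ℝ) * q * (Q * μ ^ 3)) + 1) := by
  classical
  have hIcc : ∀ i ∈ T, (i : ℝ) ∈ Set.Icc (M : ℝ) N := fun i hi => by
    have := mem_Ico.1 (hT hi)
    exact ⟨Nat.cast_le.2 this.1, Nat.cast_le.2 this.2.le⟩
  rw [Finset.card_eq_sum_card_fiberwise (f := fun i => (approxRat g Q i).den) (t := Icc 1 Q)
    fun i _ => mem_coe.2 (mem_Icc.2 ⟨(approxRat g Q i).den_pos, (approxRat_spec g hQ i).2⟩),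
    Nat.cast_sum]
  refine Finset.sum_le_sum fun q hq => ?_
  have hq0 : 0 < q := (mem_Icc.1 hq).1
  have hqR : (0 : ℝ) < q := Nat.cast_pos.2 hq0
  have hQR : (1 : ℝ) ≤ Q := Nat.one_le_cast.2 hQ
  set Tq := T.filter fun i => (approxRat g Q i).den = q
  have hL : (0 : ℝ) ≤ A * μ ^ 3 * ((N : ℝ) - M) :=
    mul_nonneg (by positivity) (sub_nonneg.2 (Nat.cast_le.2 hMN))
  rw [Finset.card_eq_sum_card_fiberwise (s := Tq) (f := fun i => (approxRat g Q i).num)
    (t := Tq.image fun i => (approxRat g Q i).num)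
    fun i hi => mem_coe.2 (mem_image_of_mem _ hi), Nat.cast_sum]
  refine le_trans (Finset.sum_le_card_nsmul _ _ (2 / ((q : ℝ) * q * (Q * μ ^ 3)) + 1)
    fun m _ => ?_) ?_
  · -- one rational
    set F := Tq.filter fun i => (approxRat g Q i).num = m with hF
    rcases F.eq_empty_or_nonempty with he | hne
    · rw [he, card_empty, Nat.cast_zero]; positivity
    set i₀ := F.min' hne
    have hmem : ∀ i ∈ F, i ∈ T ∧ (approxRat g Q i).den = q ∧ (approxRat g Q i).num = m :=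
      fun i hi => by
        simp only [hF, Tq, mem_filter] at hi
        exact ⟨hi.1.1, hi.1.2, hi.2⟩
    have hspan : ∀ i ∈ F, (i : ℝ) - i₀ ≤ 2 / ((q : ℝ) * (Q * μ ^ 3)) := fun i hi => by
      obtain ⟨h1, h2, h3⟩ := hmem i hi
      obtain ⟨h1', h2', h3'⟩ := hmem i₀ (F.min'_mem hne)
      have e : approxRat g Q i = approxRat g Q i₀ := Rat.ext (h3.trans h3'.symm) (h2.trans h2'.symm)
      have hi1 := (approxRat_spec g hQ i).1
      have hi2 := (approxRat_spec g hQ i₀).1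
      rw [h2] at hi1
      rw [h2'] at hi2
      rw [← e] at hi2
      have hd := (hf.2 i (hIcc i h1) i₀ (hIcc i₀ h1')).1
      have habs : |g i - g i₀| ≤ 2 * (1 / ((Q : ℝ) * q)) := by
        have := abs_sub_le (g i) (approxRat g Q i : ℝ) (g i₀)
        rw [abs_sub_comm (approxRat g Q i : ℝ) (g i₀)] at this
        linarith
      have h4 : μ ^ 3 * ((i : ℝ) - i₀) ≤ 2 * (1 / ((Q : ℝ) * q)) :=
        le_trans (mul_le_mul_of_nonneg_left (le_abs_self _) (by positivity)) (hd.trans habs)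
      rw [le_div_iff₀ (by positivity)]
      have h5 := mul_le_mul_of_nonneg_right h4 (by positivity : (0 : ℝ) ≤ (Q : ℝ) * q)
      rw [mul_assoc 2, div_mul_cancel₀ _ (by positivity : (Q : ℝ) * q ≠ 0), mul_one] at h5
      linarith
    set Kmax := ⌊2 / ((q : ℝ) * q * (Q * μ ^ 3))⌋₊
    have hcard : F.card ≤ (range (Kmax + 1)).card := by
      refine Finset.card_le_card_of_injOn (fun i => (i - i₀) / q) (fun i hi => ?_) ?_
      · refine mem_coe.2 (mem_range.2 (Nat.lt_succ_of_le (Nat.le_floor ?_)))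
        refine Nat.cast_div_le.trans ?_
        rw [Nat.cast_sub (F.min'_le i hi), div_le_iff₀ hqR]
        refine (hspan i hi).trans (le_of_eq ?_)
        field_simp
      · intro i hi j hj e
        simp only at e
        obtain ⟨h1, h2, -⟩ := hmem i hi
        obtain ⟨h1', h2', -⟩ := hmem j hj
        have hi0 := F.min'_le i hi
        have hj0 := F.min'_le j hj
        rcases lt_trichotomy i j with hlt | heq | hlt
        · have h6 := hsep i h1 j h1' hlt
          rw [h2] at h6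
          have h7 : (i - i₀) / q + 1 ≤ (j - i₀) / q := by
            rw [← Nat.add_div_right _ hq0]
            exact Nat.div_le_div_right (by omega)
          omega
        · exact heq
        · have h6 := hsep j h1' i h1 hlt
          rw [h2'] at h6
          have h7 : (j - i₀) / q + 1 ≤ (i - i₀) / q := by
            rw [← Nat.add_div_right _ hq0]
            exact Nat.div_le_div_right (by omega)
          omega
    rw [card_range] at hcard
    refine (Nat.cast_le.2 hcard).trans ?_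
    push_cast
    linarith [Nat.floor_le (show (0 : ℝ) ≤ 2 / ((q : ℝ) * q * (Q * μ ^ 3)) by positivity)]
  -- the rationals with denominator `q`
  rw [nsmul_eq_mul]
  refine mul_le_mul_of_nonneg_right ?_ (by positivity)
  set I := Tq.image fun i => (approxRat g Q i).num
  rcases I.eq_empty_or_nonempty with he | hne
  · rw [he, card_empty, Nat.cast_zero]; positivity
  have hsub : I ⊆ Icc (I.min' hne) (I.max' hne) :=
    fun x hx => mem_Icc.2 ⟨I.min'_le x hx, I.le_max' x hx⟩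
  have hcard := Finset.card_le_card hsub
  obtain ⟨i, hi, hi'⟩ := mem_image.1 (I.max'_mem hne)
  obtain ⟨j, hj, hj'⟩ := mem_image.1 (I.min'_mem hne)
  obtain ⟨hiT, hiq⟩ := mem_filter.1 hi
  obtain ⟨hjT, hjq⟩ := mem_filter.1 hj
  have hnum : ∀ k, (approxRat g Q k).den = q →
      |(q : ℝ) * g k - (approxRat g Q k).num| ≤ 1 := by
    intro k hk
    have h1 := (approxRat_spec g hQ k).1
    rw [Rat.cast_def, hk] at h1
    rw [show (q : ℝ) * g k - (approxRat g Q k).num = q * (g k - (approxRat g Q k).num / q) by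
      field_simp, abs_mul, abs_of_pos hqR]
    refine (mul_le_mul_of_nonneg_left h1 hqR.le).trans ?_
    rw [mul_one_div, div_le_one (by positivity)]
    nlinarith
  have e1 := abs_le.1 (hnum i hiq)
  have e2 := abs_le.1 (hnum j hjq)
  rw [hi'] at e1
  rw [hj'] at e2
  have hg : g i - g j ≤ A * μ ^ 3 * ((N : ℝ) - M) := by
    refine (le_abs_self _).trans ((hf.2 i (hIcc i hiT) j (hIcc j hjT)).2.trans ?_)
    refine mul_le_mul_of_nonneg_left ?_ (by positivity)
    rw [abs_le]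
    have := hIcc i hiT
    have := hIcc j hjT
    constructor <;> linarith [this.1, this.2, (hIcc i hiT).1, (hIcc i hiT).2]
  have hIccCard : ((Icc (I.min' hne) (I.max' hne)).card : ℝ) =
      ((I.max' hne : ℤ) : ℝ) + 1 - (I.min' hne : ℤ) := by
    rw [Int.card_Icc, ← Int.cast_natCast, Int.toNat_of_nonneg (by
      have := I.min'_le _ (I.max'_mem hne); omega)]
    push_cast; ring
  refine (Nat.cast_le.2 hcard).trans ?_
  rw [hIccCard]
  have h8 := mul_le_mul_of_nonneg_left hg hqR.le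
  linarith

/-- **Vinogradov's lemma.** -/
theorem abs_sum_saw_le (hA : 0 ≤ A) (hμ : 0 < μ) {M N : ℕ} (hMN : M ≤ N)
    (hf : IsCurve f g A μ M N) :
    |∑ n ∈ Ico M N, saw (f n)| ≤
      (16 * A + 7) * (8 * A + 38) *
        (((N : ℝ) - M) * μ * (1 + |Real.log μ|) + 1 / μ ^ 2) := by
  have hL : (0 : ℝ) ≤ (N : ℝ) - M := sub_nonneg.2 (Nat.cast_le.2 hMN)
  have hl : (1 : ℝ) ≤ 1 + |Real.log μ| := le_add_of_nonneg_right (abs_nonneg _)
  rcases lt_or_ge 1 μ with h1 | h1
  · refine (Finset.abs_sum_le_sum_abs _ _).trans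
      ((Finset.sum_le_sum fun i _ => abs_saw_le _).trans ?_)
    rw [Finset.sum_const, Nat.card_Ico, nsmul_eq_mul, Nat.cast_sub hMN]
    have hK : (1 : ℝ) ≤ (16 * A + 7) * (8 * A + 38) := by nlinarith
    have hm : ((N : ℝ) - M) ≤ ((N : ℝ) - M) * μ * (1 + |Real.log μ|) := by
      calc ((N : ℝ) - M) = ((N : ℝ) - M) * 1 * 1 := by ring
        _ ≤ _ := by gcongr
    have hp : (0 : ℝ) ≤ 1 / μ ^ 2 := by positivity
    nlinarith
  set Q := ⌈1 / μ⌉₊
  have hQ : 0 < Q := Nat.ceil_pos.2 (by positivity)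
  have hQR : (0 : ℝ) < Q := Nat.cast_pos.2 hQ
  have hQlo : 1 / μ ≤ Q := Nat.le_ceil _
  have hμinv : (1 : ℝ) ≤ 1 / μ := by rw [le_div_iff₀ hμ]; linarith
  have hQhi : (Q : ℝ) ≤ 2 / μ := by
    have := (Nat.ceil_lt_add_one (show 0 ≤ 1 / μ by positivity)).le
    rw [show 2 / μ = 1 / μ + 1 / μ by ring]
    linarith
  have hQμ : (Q : ℝ) * μ ≤ 2 := (le_div_iff₀ hμ).1 hQhi
  have hQμ1 : 1 ≤ (Q : ℝ) * μ := (div_le_iff₀ hμ).1 hQlo
  obtain ⟨T, hT, hsep, hbd⟩ := exists_blocks hA hμ.le hQ (by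
    rw [← mul_pow, mul_comm]
    calc ((Q : ℝ) * μ) ^ 3 ≤ 2 ^ 3 := by gcongr
      _ = 8 := by norm_num) hf (N - M) M (by omega) le_rfl
  refine hbd.trans ?_
  have hT' := card_blocks_le hμ hA hQ hf hMN hT hsep
  set L := A * μ ^ 3 * ((N : ℝ) - M)
  have hL' : 0 ≤ L := mul_nonneg (by positivity) hL
  have hterm : ∀ q ∈ Icc 1 Q, ((q : ℝ) * L + 3) * (2 / ((q : ℝ) * q * (Q * μ ^ 3)) + 1) ≤
      (2 * L / (Q * μ ^ 3)) * (q : ℝ)⁻¹ + (Q * L + 3) +
        (6 / (Q * μ ^ 3)) * (((q : ℝ) - 1 / 2)⁻¹ - ((q : ℝ) + 1 / 2)⁻¹) := by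
    intro q hq
    have hq1 : (1 : ℝ) ≤ q := Nat.one_le_cast.2 (mem_Icc.1 hq).1
    have hqQ : (q : ℝ) ≤ Q := Nat.cast_le.2 (mem_Icc.1 hq).2
    have hsq : ((q : ℝ) * q)⁻¹ ≤ ((q : ℝ) - 1 / 2)⁻¹ - ((q : ℝ) + 1 / 2)⁻¹ := by
      rw [inv_sub_inv (by linarith) (by linarith), inv_eq_one_div]
      rw [div_le_div_iff₀ (by positivity) (by nlinarith)]
      nlinarith
    calc ((q : ℝ) * L + 3) * (2 / ((q : ℝ) * q * (Q * μ ^ 3)) + 1)
        = (2 * L / (Q * μ ^ 3)) * (q : ℝ)⁻¹ + (q * L + 3) +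
          (6 / (Q * μ ^ 3)) * ((q : ℝ) * q)⁻¹ := by field_simp; ring
      _ ≤ _ := by
        gcongr
  have hsumT := hT'.trans (Finset.sum_le_sum hterm)
  rw [Finset.sum_add_distrib, Finset.sum_add_distrib, ← Finset.mul_sum, ← Finset.mul_sum,
    Finset.sum_const, Nat.card_Icc, Nat.add_sub_cancel, nsmul_eq_mul] at hsumT
  have hH : ∑ q ∈ Icc 1 Q, (q : ℝ)⁻¹ ≤ 1 + Real.log Q := by
    have h := harmonic_le_one_add_log Q
    rw [harmonic_eq_sum_Icc, Rat.cast_sum] at h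
    simpa using h
  have htel : ∑ q ∈ Icc 1 Q, (((q : ℝ) - 1 / 2)⁻¹ - ((q : ℝ) + 1 / 2)⁻¹) ≤ 2 := by
    rw [← Finset.Ico_succ_right_eq_Icc, Order.succ_eq_add_one, Finset.sum_Ico_eq_sum_range,
      Nat.add_sub_cancel]
    have e : ∀ k : ℕ, (((1 + k : ℕ) : ℝ) - 1 / 2)⁻¹ - (((1 + k : ℕ) : ℝ) + 1 / 2)⁻¹ =
        (fun j : ℕ => ((j : ℝ) + 1 / 2)⁻¹) k - (fun j : ℕ => ((j : ℝ) + 1 / 2)⁻¹) (k + 1) :=
      fun k => by push_cast; ring_nf
    rw [Finset.sum_congr rfl fun k _ => e k,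
      Finset.sum_range_sub' (fun j : ℕ => ((j : ℝ) + 1 / 2)⁻¹)]
    have : (0 : ℝ) ≤ ((Q : ℝ) + 1 / 2)⁻¹ := by positivity
    norm_num
    linarith
  have hlog : Real.log Q ≤ 1 + |Real.log μ| := by
    have h2 : Real.log Q ≤ Real.log (2 / μ) := Real.log_le_log hQR hQhi
    rw [Real.log_div two_ne_zero hμ.ne'] at h2
    linarith [Real.log_le_sub_one_of_pos (show (0 : ℝ) < 2 by norm_num), neg_abs_le (Real.log μ)]
  set ℓ := 1 + |Real.log μ|
  set m := ((N : ℝ) - M) * μ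
  have hm : 0 ≤ m := mul_nonneg hL hμ.le
  have hinv : 1 / ((Q : ℝ) * μ ^ 3) ≤ 1 / μ ^ 2 := by
    apply one_div_le_one_div_of_le (by positivity)
    nlinarith
  have a1 : 2 * L / (Q * μ ^ 3) * ∑ q ∈ Icc 1 Q, (q : ℝ)⁻¹ ≤ 2 * A * m * (2 * ℓ) := by
    have e : 2 * L / (Q * μ ^ 3) = 2 * A * (((N : ℝ) - M) / Q) := by
      simp only [L]; field_simp
    have e2 : ((N : ℝ) - M) / Q ≤ m := by
      rw [div_le_iff₀ hQR, mul_assoc, mul_comm μ]
      exact le_mul_of_one_le_right hL hQμ1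
    rw [e]
    refine mul_le_mul (mul_le_mul_of_nonneg_left e2 (by positivity))
      (hH.trans (by linarith)) (Finset.sum_nonneg fun q _ => by positivity) (by positivity)
  have a2 : (Q : ℝ) * (Q * L + 3) ≤ 4 * A * m + 6 / μ ^ 2 := by
    have e1 : (Q : ℝ) * (Q * L) = A * m * ((Q : ℝ) * μ) ^ 2 := by simp only [L, m]; ring
    have e2 : ((Q : ℝ) * μ) ^ 2 ≤ 4 := by nlinarith
    have e3 : 3 * (Q : ℝ) ≤ 6 / μ ^ 2 := by
      rw [le_div_iff₀ (by positivity)]
      nlinarith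
    rw [mul_add, e1]
    nlinarith [mul_le_mul_of_nonneg_left e2 (mul_nonneg hA hm)]
  have a3 : 6 / (Q * μ ^ 3) * ∑ q ∈ Icc 1 Q, (((q : ℝ) - 1 / 2)⁻¹ - ((q : ℝ) + 1 / 2)⁻¹) ≤
      12 / μ ^ 2 := by
    refine (mul_le_mul_of_nonneg_left htel (by positivity)).trans ?_
    rw [show 6 / ((Q : ℝ) * μ ^ 3) * 2 = 12 * (1 / ((Q : ℝ) * μ ^ 3)) by ring,
      show 12 / μ ^ 2 = 12 * (1 / μ ^ 2) by ring]
    linarith
  have hQ2 : (Q : ℝ) ≤ 2 / μ ^ 2 := by
    rw [le_div_iff₀ (by positivity)]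
    nlinarith
  have hbig : (T.card : ℝ) ≤ 8 * A * (m * ℓ) + 18 * (1 / μ ^ 2) := by
    refine hsumT.trans ?_
    have : A * m ≤ A * (m * ℓ) := mul_le_mul_of_nonneg_left (le_mul_of_one_le_right hm hl) hA
    rw [show 18 * (1 / μ ^ 2) = 6 / μ ^ 2 + 12 / μ ^ 2 by ring]
    linarith
  have hp : (0 : ℝ) ≤ 1 / μ ^ 2 := by positivity
  have hmℓ : 0 ≤ m * ℓ := mul_nonneg hm (by linarith)
  calc (16 * A + 7) * (T.card : ℝ) + Q
      ≤ (16 * A + 7) * (8 * A * (m * ℓ) + 18 * (1 / μ ^ 2)) + 2 * (1 / μ ^ 2) := by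
        refine add_le_add (mul_le_mul_of_nonneg_left hbig (by linarith)) ?_
        rw [mul_one_div]
        exact hQ2
    _ ≤ (16 * A + 7) * (8 * A + 38) * (m * ℓ + 1 / μ ^ 2) := by
        nlinarith [mul_nonneg hA hmℓ, mul_nonneg hA hp, mul_nonneg (mul_nonneg hA hA) hp]

end FA.CubeRootBounds

end
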